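/-
Project FF (S19), cell [INST], sub-cell [I-PKG] = `ffi_SeamPKG N ℓ` (architect: helper5).
THE SUB-SEAMS of the model.  Prefix `ffi_`.

`ffi_SeamPKG N ℓ ⟸ ffi_SeamCH N ℓ ∧ ffi_SeamFB1 ∧ ffi_SeamFB2 ∧ ffi_SeamPD ∧ ffi_SeamGR ∧
                   ffi_SeamDK N ℓ ∧ ffi_SeamDκ N ℓ`      (`FF/Inst/Pkg/Assembly.lean`).

* `ffi_IsFilt`     : the "filtration" fields of `ff_IsPkg` (everything except the DVR `O`, the two
                     Dedekind fibres and Riemann's theorem on the special fibre);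
* `ffi_IsPreDict`  : `ffi_IsDict` without Riemann's theorem, plus injectivity of `k ⊗ Λ m → k ⊗ 𝒜`;
* **[P-CH]  `ffi_SeamCH N ℓ`** : the two base-level packages `rpn_Level0` of the `j`-charts at the
                     level `(L, O₁)` (wiring of `rpw_leg_dedekind` / `rpw_hes_dedekind`);
* **[P-FB1] `ffi_SeamFB1`**, **[P-FB2] `ffi_SeamFB2`** : ABSTRACT (Mathlib + `FCore/Charts`): the
                     filtration algebra of the two charts `fc_chart O {x}`, `fc_chart O {x⁻¹}`;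
* **[P-GN]  `ffi_SeamGN`** : ABSTRACT geometric normality (Galois trace);
* **[P-PD]  `ffi_SeamPD`** : ABSTRACT: two compatible chart comparisons `k ⊗ 𝒜 ≅ chart of x_k`,
                     `k ⊗ 𝒜' ≅ chart of x_k⁻¹` give the pre-dictionary;
* **[P-GR]  `ffi_SeamGR`** : ABSTRACT: pre-dictionary + filtration ⟹ dictionary (the genus of the
                     fibre is the `g` of the filtration) and Riemann's theorem in ideal form;
* **[P-DK]  `ffi_SeamDK N ℓ`**, **[P-Dκ] `ffi_SeamDκ N ℓ`** : the chart comparisons of the two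
                     fibres of the modular model.
-/
import Mathlib
import Fermat.Agent.FF.Inst.Seams
import Fermat.Agent.JT3.PlaceMap.Level0

set_option autoImplicit false

noncomputable section

namespace Fermat.Agent.FF

open ModularCurve AlgebraicCurve Fermat.Agent.JT3
open scoped TensorProduct

/-! ### the filtration part of a package -/

/-- the "filtration" fields of `ff_IsPkg`. -/
structure ffi_IsFilt (O : Type) [CommRing O] (𝒜 : Type) [CommRing 𝒜] [Algebra O 𝒜]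
    (C : Type) [CommRing C] [Algebra O C] (π : O)
    (Λ : ℕ → Submodule O 𝒜) (lead : ∀ m, ↥(Λ m) →ₗ[O] C) (g n m0 : ℕ) : Prop where
  ft : Algebra.FiniteType O 𝒜
  tf : ∀ a : 𝒜, π • a = 0 → a = 0
  mono : Monotone Λ
  exh : ∀ a : 𝒜, ∃ m, a ∈ Λ m
  one_mem : (1 : 𝒜) ∈ Λ 0
  zero_const : ∀ x ∈ Λ 0, ∃ o : O, x = algebraMap O 𝒜 o
  mul_mem : ∀ (a b : ℕ) (x y : 𝒜), x ∈ Λ a → y ∈ Λ b → x * y ∈ Λ (a + b)
  fg : ∀ m, (Λ m).FG
  sat : ∀ (m : ℕ) (a : 𝒜), π • a ∈ Λ m → a ∈ Λ m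
  Cfin : Module.Finite O C
  Cfree : Module.Free O C
  Crank : Module.finrank O C = n
  lead_ker : ∀ (m : ℕ) (x : ↥(Λ (m + 1))), lead (m + 1) x = 0 ↔ (x : 𝒜) ∈ Λ m
  lead_zero : ∀ x : ↥(Λ 0), lead 0 x = 0 → x = 0
  lead_one : lead 0 ⟨1, one_mem⟩ = 1
  lead_mul : ∀ (a b : ℕ) (x : ↥(Λ a)) (y : ↥(Λ b)),
    lead (a + b) ⟨(x : 𝒜) * (y : 𝒜), mul_mem a b x y x.2 y.2⟩ = lead a x * lead b y
  lead_surj : ∀ m, m0 ≤ m → Function.Surjective (lead m)
  rank : ∀ m, m0 ≤ m → Module.finrank O ↥(Λ m) + g = m * n + 1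

/-- a package from its filtration part, the base, the fibres and Riemann. -/
theorem ffi_isPkg_of_filt {O : Type} [CommRing O] {𝒜 : Type} [CommRing 𝒜] [Algebra O 𝒜]
    {C : Type} [CommRing C] [Algebra O C] {π : O}
    {Kb : Type} [Field Kb] [Algebra O Kb] {κ : Type} [Field κ] [Algebra O κ]
    {Λ : ℕ → Submodule O 𝒜} {lead : ∀ m, ↥(Λ m) →ₗ[O] C} {g n m0 : ℕ} (c0 : ℕ)
    (hF : ffi_IsFilt O 𝒜 C π Λ lead g n m0)
    (irr : Irreducible π) (res_surj : Function.Surjective (algebraMap O κ))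
    (res_ker : RingHom.ker (algebraMap O κ) = Ideal.span {π})
    (inj : Function.Injective (algebraMap O Kb))
    (dedκ : IsDedekindDomain (κ ⊗[O] 𝒜)) (notFieldκ : ¬ IsField (κ ⊗[O] 𝒜))
    (dedK : IsDedekindDomain (Kb ⊗[O] 𝒜))
    (riemann : ∀ (I : Ideal (κ ⊗[O] 𝒜)) (m : ℕ), Module.Finite κ ((κ ⊗[O] 𝒜) ⧸ I) →
      m0 ≤ m → Module.finrank κ ((κ ⊗[O] 𝒜) ⧸ I) + c0 ≤ m * n →
      Function.Surjective fun u : κ ⊗[O] ↥(Λ m) => Ideal.Quotient.mk I (ff_incl O 𝒜 κ Λ m u)) :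
    ff_IsPkg O 𝒜 C π Kb κ Λ lead g n m0 c0 where
  irr := irr
  res_surj := res_surj
  res_ker := res_ker
  inj := inj
  ft := hF.ft
  tf := hF.tf
  dedκ := dedκ
  notFieldκ := notFieldκ
  dedK := dedK
  mono := hF.mono
  exh := hF.exh
  one_mem := hF.one_mem
  zero_const := hF.zero_const
  mul_mem := hF.mul_mem
  fg := hF.fg
  sat := hF.sat
  Cfin := hF.Cfin
  Cfree := hF.Cfree
  Crank := hF.Crank
  lead_ker := hF.lead_ker
  lead_zero := hF.lead_zero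
  lead_one := hF.lead_one
  lead_mul := hF.lead_mul
  lead_surj := hF.lead_surj
  rank := hF.rank
  riemann := riemann

/-- `ffi_IsDict` without Riemann's theorem, plus injectivity of `k ⊗ Λ m → k ⊗ 𝒜`. -/
structure ffi_IsPreDict (O : Type) [CommRing O] (𝒜 : Type) [CommRing 𝒜] [Algebra O 𝒜]
    (C : Type) [CommRing C] [Algebra O C] (k : Type) [Field k] [Algebra O k]
    (Λ : ℕ → Submodule O 𝒜) (lead : ∀ m, ↥(Λ m) →ₗ[O] C)
    (Fk : Type) [Field Fk] [Algebra k Fk] (xk : Fk) (ι : k ⊗[O] 𝒜 →ₐ[k] Fk) (m1 : ℕ) :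
    Prop where
  sep : rt_IsSepGen k xk
  inj : Function.Injective ι
  chart : ∀ f : Fk, f ∈ ι.range ↔
    ∀ v : Place k Fk, xk ∈ v.toValuationSubring → f ∈ v.toValuationSubring
  incl_inj : ∀ m, Function.Injective (ff_incl O 𝒜 k Λ m)
  lam_le : ∀ (m : ℕ) (u : k ⊗[O] ↥(Λ m)) (v : Place k Fk), xk ∉ v.toValuationSubring →
    (m : ℤ) * v.ord xk ≤ v.ord (ι (ff_incl O 𝒜 k Λ m u))
  lam_ge : ∀ m : ℕ, m1 ≤ m → ∀ b : k ⊗[O] 𝒜,
    (∀ v : Place k Fk, xk ∉ v.toValuationSubring → (m : ℤ) * v.ord xk ≤ v.ord (ι b)) →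
    ∃ u : k ⊗[O] ↥(Λ m), ff_incl O 𝒜 k Λ m u = b
  lead_iff : ∀ (m : ℕ) (u : k ⊗[O] ↥(Λ m)), IsUnit (ff_leadk O 𝒜 C k Λ lead m u) ↔
    (ι (ff_incl O 𝒜 k Λ m u) ≠ 0 ∧ ∀ v : Place k Fk, xk ∉ v.toValuationSubring →
      v.ord (ι (ff_incl O 𝒜 k Λ m u)) = (m : ℤ) * v.ord xk)

/-! ### [P-FB1], [P-FB2]: the filtration algebra of two charts (abstract) -/

section FB

variable (O : Type) [CommRing O] {F : Type} [Field F] [Algebra O F] (x : F)

/-- the elementary fields of `ffi_IsFilt` for `𝒜 = fc_chart O {x}`, `𝒜' = fc_chart O {x⁻¹}`,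
`Λ = ffi_gLam O x`, `C = ffi_gC O x`, `lead = ffi_gLead O x`. -/
structure ffi_IsFiltA (π : O) : Prop where
  ft : Algebra.FiniteType O ↥(fc_chart O ({x} : Set F))
  tf : ∀ a : ↥(fc_chart O ({x} : Set F)), π • a = 0 → a = 0
  mono : Monotone (ffi_gLam O x)
  exh : ∀ a : ↥(fc_chart O ({x} : Set F)), ∃ m, a ∈ ffi_gLam O x m
  one_mem : (1 : ↥(fc_chart O ({x} : Set F))) ∈ ffi_gLam O x 0
  zero_const : ∀ a ∈ ffi_gLam O x 0, ∃ o : O, a = algebraMap O ↥(fc_chart O ({x} : Set F)) o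
  mul_mem : ∀ (a b : ℕ) (y z : ↥(fc_chart O ({x} : Set F))), y ∈ ffi_gLam O x a →
    z ∈ ffi_gLam O x b → y * z ∈ ffi_gLam O x (a + b)
  sat : ∀ (m : ℕ) (a : ↥(fc_chart O ({x} : Set F))), π • a ∈ ffi_gLam O x m → a ∈ ffi_gLam O x m
  Cfin : Module.Finite O (ffi_gC O x)
  Cfree : Module.Free O (ffi_gC O x)
  lead_ker : ∀ (m : ℕ) (y : ↥(ffi_gLam O x (m + 1))),
    ffi_gLead O x (m + 1) y = 0 ↔ (y : ↥(fc_chart O ({x} : Set F))) ∈ ffi_gLam O x m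
  lead_zero : ∀ y : ↥(ffi_gLam O x 0), ffi_gLead O x 0 y = 0 → y = 0
  lead_one : ffi_gLead O x 0 ⟨1, one_mem⟩ = 1
  lead_mul : ∀ (a b : ℕ) (y : ↥(ffi_gLam O x a)) (z : ↥(ffi_gLam O x b)),
    ffi_gLead O x (a + b) ⟨(y : ↥(fc_chart O ({x} : Set F))) * (z : ↥(fc_chart O ({x} : Set F))),
      mul_mem a b y z y.2 z.2⟩ = ffi_gLead O x a y * ffi_gLead O x b z

end FB

/-- **[P-FB1]** (ABSTRACT, Mathlib + `JT3/FCore/Charts`): `O` a discrete valuation ring with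
uniformiser `π` and fraction field `K`, `F ⊇ K` a field in which `K` is algebraically closed,
`x ∈ F` transcendental over `K`; both charts `𝒜 = fc_chart O {x}`, `𝒜' = fc_chart O {x⁻¹}` finite
over `O[x]`, `O[x⁻¹]` with `π` prime in both.  Then the elementary filtration fields hold.
[`exh`: `fc_clear2`; `zero_const`: a function integral over `O[x]` and `O[x⁻¹]` has a minimal
polynomial over `K(x)` with coefficients in `K[x] ∩ K[x⁻¹] = K`; `sat`: `π ∤ x⁻¹` in `𝒜'` by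
transcendence, then descend `t^r c ∈ 𝒜'` with `π` prime; `Cfree`: finite and torsion-free over a
PID (`π c = t b ⟹ π ∣ b`).] -/
def ffi_SeamFB1 : Prop :=
  ∀ (O : Type) [CommRing O] [IsDomain O] [IsDiscreteValuationRing O]
    (K : Type) [Field K] [Algebra O K] [IsFractionRing O K]
    (F : Type) [Field F] [Algebra K F] [Algebra O F] [IsScalarTower O K F]
    (π : O), Irreducible π → ∀ x : F, Transcendental K x →
    (∀ z : F, IsAlgebraic K z → z ∈ (algebraMap K F).range) →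
    (∃ G : Finset F, (∀ g ∈ G, g ∈ fc_chart O ({x} : Set F)) ∧
      ∀ b ∈ fc_chart O ({x} : Set F),
        b ∈ Submodule.span ↥(Algebra.adjoin O ({x} : Set F)) (G : Set F)) →
    (∃ G : Finset F, (∀ g ∈ G, g ∈ fc_chart O ({x⁻¹} : Set F)) ∧
      ∀ b ∈ fc_chart O ({x⁻¹} : Set F),
        b ∈ Submodule.span ↥(Algebra.adjoin O ({x⁻¹} : Set F)) (G : Set F)) →
    Prime (algebraMap O ↥(fc_chart O ({x} : Set F)) π) →
    Prime (algebraMap O ↥(fc_chart O ({x⁻¹} : Set F)) π) →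
    ffi_IsFiltA O x π

/-- **[P-FB2]** (ABSTRACT, Mathlib + `JT3/FCore/Charts`): gluing.  From `ffi_IsFiltA` and the
finiteness of `𝒜'` over `O[x⁻¹]`: the Čech statement `𝒜₁₂ = 𝒜 + x^m 𝒜'` for `m + 1 ≥ m0`
[`𝒜₁₂ = 𝒜'[x]`, generators `e_i` of `𝒜'` over `O[x⁻¹]`, `x^a e_i ∈ 𝒜` by `fc_clear1`; `m0 = a`],
hence `lead_surj`; `fg` by induction on `m` (`Λ 0 = O`, `Λ (m+1) / Λ m ↪ C`); `rank`
(`Λ (m+1) / Λ m ≅ C` for `m + 1 ≥ m0`, `g := m0 n + 1 - rank Λ m0`). -/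
def ffi_SeamFB2 : Prop :=
  ∀ (O : Type) [CommRing O] [IsDomain O] [IsDiscreteValuationRing O]
    (F : Type) [Field F] [Algebra O F]
    (π : O), Irreducible π → ∀ x : F, x ≠ 0 →
    (∃ G : Finset F, (∀ g ∈ G, g ∈ fc_chart O ({x⁻¹} : Set F)) ∧
      ∀ b ∈ fc_chart O ({x⁻¹} : Set F),
        b ∈ Submodule.span ↥(Algebra.adjoin O ({x⁻¹} : Set F)) (G : Set F)) →
    ffi_IsFiltA O x π →
    ∃ g n m0 : ℕ,
      ffi_IsFilt O ↥(fc_chart O ({x} : Set F)) (ffi_gC O x) π (ffi_gLam O x) (ffi_gLead O x)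
        g n m0 ∧
      ∀ m : ℕ, m0 ≤ m + 1 → ∀ f ∈ fc_chart O ({x, x⁻¹} : Set F),
        ∃ a ∈ fc_chart O ({x} : Set F), ∃ b ∈ fc_chart O ({x⁻¹} : Set F), f = a + x ^ m * b

/-! ### [P-GN]: geometric normality (abstract) -/

/-- **[P-GN]** (ABSTRACT, Mathlib only): geometric normality.  `K` of characteristic zero, `Kb / K`
algebraic (and normal: `Kb` algebraically closed), `F / K` a field, `FK / Kb` a field spanned over
`Kb` by the image of `φ : F → FK`, every `σ ∈ Gal(Kb / K)` extends to a ring automorphism of `FK`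
fixing `φ F` pointwise.  Then a function `f ∈ FK` integral over `Kb[φ x]` is a `Kb`-linear
combination of `φ b`, `b ∈ F` integral over `K[x]`.
[`f = ∑ m_i φ f_i`, `m_i` a `K`-basis of a finite Galois `M ⊆ Kb`; `φ f_j = ∑_σ σ̃ (m_j^* f)` with the
trace-dual basis, and every `σ̃ (m_j^* f)` is integral over `Kb[φ x]`, hence `φ f_j` is integral
over `K[φ x]`.] -/
def ffi_SeamGN : Prop :=
  ∀ (K : Type) [Field K] [CharZero K] (Kb : Type) [Field Kb] [Algebra K Kb] [IsAlgClosed Kb]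
    [Algebra.IsAlgebraic K Kb]
    (F : Type) [Field F] [Algebra K F] (FK : Type) [Field FK] [Algebra Kb FK] (φ : F →+* FK),
    (∀ c : K, φ (algebraMap K F c) = algebraMap Kb FK (algebraMap K Kb c)) →
    (∀ f : FK, f ∈ Submodule.span Kb (Set.range φ)) →
    (∀ σ : Kb ≃ₐ[K] Kb, ∃ τ : FK ≃+* FK,
      (∀ c : Kb, τ (algebraMap Kb FK c) = algebraMap Kb FK (σ c)) ∧ ∀ f : F, τ (φ f) = φ f) →
    ∀ (x : F) (f : FK), IsIntegral ↥(Algebra.adjoin Kb ({φ x} : Set FK)) f →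
      f ∈ Submodule.span Kb (φ '' {b : F | IsIntegral ↥(Algebra.adjoin K ({x} : Set F)) b})

/-! ### [P-PD]: the pre-dictionary from two chart comparisons (abstract) -/

/-- **[P-PD]** (ABSTRACT; Mathlib + `FF/Dict/*` + `FF/Inst/Defs`): `(O, F, x)` as in [P-FB] with
its filtration; `k` an algebraically closed `O`-field, `Fk / k` a function field with separating
generator `xk`; two injective comparison maps `ι : k ⊗ 𝒜 → Fk`, `ι' : k ⊗ 𝒜' → Fk` onto the charts of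
`xk`, `xk⁻¹`, compatible on `a = x^m b`; `k ⊗ 𝒜'` a Dedekind domain; the gluing property `hglue`
for `m ≥ m1` and injectivity of `k ⊗ Λ m → k ⊗ 𝒜`.  Then `ffi_IsPreDict`.
[`lam_le`: `ι (incl u) = xk^m ι' (…)`; `lam_ge`: `ι b · xk^{-m}` is regular wherever `xk⁻¹` is, so
it is `ι' b'`, then `hglue`; `lead_iff`: `k ⊗ C = (k ⊗ 𝒜') / (1 ⊗ t)`, and `f'` is a unit modulo `t`
in the Dedekind domain `k ⊗ 𝒜'` iff it vanishes at no zero of `t` = pole of `xk`.] -/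
def ffi_SeamPD : Prop :=
  ∀ (O : Type) [CommRing O] [IsDomain O] [IsDiscreteValuationRing O]
    (F : Type) [Field F] [Algebra O F] (π : O) (x : F) (g n m0 : ℕ),
    x ≠ 0 →
    ffi_IsFilt O ↥(fc_chart O ({x} : Set F)) (ffi_gC O x) π (ffi_gLam O x) (ffi_gLead O x)
      g n m0 →
  ∀ (k : Type) [Field k] [IsAlgClosed k] [Algebra O k] (Fk : Type) [Field Fk] [Algebra k Fk]
    (xk : Fk) (ι : k ⊗[O] ↥(fc_chart O ({x} : Set F)) →ₐ[k] Fk)
    (ι' : k ⊗[O] ↥(fc_chart O ({x⁻¹} : Set F)) →ₐ[k] Fk) (m1 : ℕ),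
    rt_IsSepGen k xk → Function.Injective ι → Function.Injective ι' →
    (∀ f : Fk, f ∈ ι.range ↔
      ∀ v : Place k Fk, xk ∈ v.toValuationSubring → f ∈ v.toValuationSubring) →
    (∀ f : Fk, f ∈ ι'.range ↔
      ∀ v : Place k Fk, xk⁻¹ ∈ v.toValuationSubring → f ∈ v.toValuationSubring) →
    (∀ (a : ↥(fc_chart O ({x} : Set F))) (b : ↥(fc_chart O ({x⁻¹} : Set F))) (m : ℕ),
      (a : F) = x ^ m * (b : F) → ι (1 ⊗ₜ[O] a) = xk ^ m * ι' (1 ⊗ₜ[O] b)) →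
    IsDedekindDomain (k ⊗[O] ↥(fc_chart O ({x⁻¹} : Set F))) →
    -- gluing on the fibre
    (∀ m : ℕ, m1 ≤ m → ∀ (b : k ⊗[O] ↥(fc_chart O ({x} : Set F)))
      (b' : k ⊗[O] ↥(fc_chart O ({x⁻¹} : Set F))), ι b = xk ^ m * ι' b' →
      ∃ u : k ⊗[O] ↥(ffi_gLam O x m),
        ff_incl O ↥(fc_chart O ({x} : Set F)) k (ffi_gLam O x) m u = b) →
    (∀ m, Function.Injective (ff_incl O ↥(fc_chart O ({x} : Set F)) k (ffi_gLam O x) m)) →
    ffi_IsPreDict O ↥(fc_chart O ({x} : Set F)) (ffi_gC O x) k (ffi_gLam O x) (ffi_gLead O x)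
      Fk xk ι m1

/-! ### [P-GR]: genus and Riemann (abstract) -/

/-- **[P-GR]** (ABSTRACT; Mathlib + `FF/Dict/*` + `JT3/Riemann`): a filtration `ffi_IsFilt` over a
discrete valuation ring and a pre-dictionary of a fibre `k ⊗ 𝒜` (a Dedekind domain) give the
dictionary (Riemann's theorem on `Fk / k` holds with the genus `g` of the filtration and
`deg (xk)_∞ = n`: compare `dim L(m (xk)_∞) = rank Λ m = m n + 1 - g` with `rt_riemann` for all large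
`m`) and Riemann's theorem in ideal form (`ffd_Lam_add_ideal'`). -/
def ffi_SeamGR : Prop :=
  ∀ (O : Type) [CommRing O] [IsDomain O] [IsDiscreteValuationRing O]
    (𝒜 : Type) [CommRing 𝒜] [Algebra O 𝒜] (C : Type) [CommRing C] [Algebra O C] (π : O)
    (Λ : ℕ → Submodule O 𝒜) (lead : ∀ m, ↥(Λ m) →ₗ[O] C) (g n m0 : ℕ),
    Irreducible π → ffi_IsFilt O 𝒜 C π Λ lead g n m0 →
  ∀ (k : Type) [Field k] [IsAlgClosed k] [Algebra O k] (Fk : Type) [Field Fk] [Algebra k Fk]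
    (xk : Fk) (ι : k ⊗[O] 𝒜 →ₐ[k] Fk) (m1 : ℕ),
    IsDedekindDomain (k ⊗[O] 𝒜) →
    ffi_IsPreDict O 𝒜 C k Λ lead Fk xk ι m1 →
    ffi_IsDict O 𝒜 C k Λ lead Fk xk ι g m1 ∧
    ∃ c0 : ℕ, ∀ (I : Ideal (k ⊗[O] 𝒜)) (m : ℕ), Module.Finite k ((k ⊗[O] 𝒜) ⧸ I) →
      m1 ≤ m → Module.finrank k ((k ⊗[O] 𝒜) ⧸ I) + c0 ≤ m * n →
      Function.Surjective fun u : k ⊗[O] ↥(Λ m) => Ideal.Quotient.mk I (ff_incl O 𝒜 k Λ m u)

/-! ### [P-CH], [P-DK], [P-Dκ]: the modular model -/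

section Modular

variable (A : ValuationSubring ff_Qb) (L : Type) [Field L] [Algebra L ff_Qb] (N : ℕ) [NeZero N]

/-- the tower `O₁ ⊆ L ⊆ F_L` -/
instance ffi_instTowerOLF :
    IsScalarTower ↥(ffi_O A L) L ↥(modularFunctionFieldFullC L N) :=
  IsScalarTower.of_algebraMap_eq fun _ => rfl

end Modular

/-- **[P-CH]** the two base-level packages `rpn_Level0` of the `j`-charts of `F_L` at the level
`(L, O₁ = A ∩ L)`, uniformiser `ℓ` [`rpw_leg_dedekind` (`ℓ` odd, `ζ_N ∈ L`) / `rpw_hes_dedekind`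
(`ℓ = 2`, `ζ_{3N} ∈ L`) are generic in the level; then `rpw_level0_j`, `rpw_level0_jinv`;
`ffi_j L N = rml_jF L N` by `rfl`; the residue field of `O₁` is algebraically closed by
`ffi_LvlOK.res` + `algClosed`]. -/
def ffi_SeamCH (N : ℕ) [NeZero N] (ℓ : ℕ) : Prop :=
  ℓ.Prime → ¬ ℓ ∣ N → ∀ A : ValuationSubring ff_Qb, A.LiesOverPrime ℓ →
  ∀ (L : Type) [Field L] [Algebra ℚ L] [Algebra L ff_Qb] [IsScalarTower ℚ L ff_Qb]
    [IsDiscreteValuationRing ↥(ffi_O A L)],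
    ffi_LvlOK A L ℓ →
    rpn_Level0 (modularFunctionFieldFullC L N) ((ℓ : ℕ) : ↥(ffi_O A L)) (ffi_j L N) ∧
    rpn_Level0 (modularFunctionFieldFullC L N) ((ℓ : ℕ) : ↥(ffi_O A L)) (ffi_j L N)⁻¹

/-- **[P-DK]** the chart comparisons of the GENERIC fibre: `Q̄ ⊗ 𝒜 ≅` the `j`-chart of `F̄_N`,
`Q̄ ⊗ 𝒜' ≅` the `j⁻¹`-chart, the gluing property for all `m`, injectivity of `Q̄ ⊗ Λ m → Q̄ ⊗ 𝒜`.
[`Q̄ ⊗_{O₁} 𝒜 = Q̄ ⊗_L 𝒜[1/ℓ]`, `𝒜[1/ℓ]` = integral closure of `L[j]` in `F_L`; `Q̄ ⊗_L F_L → F̄_N` is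
injective (coefficientwise: `L`-linearly independent elements of `Q̄` stay linearly independent over
`L((q))`); the range is integrally closed by [P-GN] with `τ` = coefficientwise Galois action;
gluing by linear disjointness; `Q̄` is flat over `O₁`.] -/
def ffi_SeamDK (N : ℕ) [NeZero N] (ℓ : ℕ) : Prop :=
  ffi_SeamGN →
  ℓ.Prime → ¬ ℓ ∣ N → ∀ A : ValuationSubring ff_Qb, A.LiesOverPrime ℓ →
  ∀ (L : Type) [Field L] [Algebra ℚ L] [Algebra L ff_Qb] [IsScalarTower ℚ L ff_Qb]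
    [IsDiscreteValuationRing ↥(ffi_O A L)],
    ffi_LvlOK A L ℓ →
    ∃ (ιK : ff_Qb ⊗[↥(ffi_O A L)] ↥(ffi_A1 A L N) →ₐ[ff_Qb] ↥(modularFunctionFieldBar N))
      (ιK' : ff_Qb ⊗[↥(ffi_O A L)] ↥(ffi_A2 A L N) →ₐ[ff_Qb] ↥(modularFunctionFieldBar N)),
      rt_IsSepGen ff_Qb (ffi_jBar N) ∧
      Function.Injective ιK ∧ Function.Injective ιK' ∧
      (∀ f : ↥(modularFunctionFieldBar N), f ∈ ιK.range ↔
        ∀ v : Place ff_Qb ↥(modularFunctionFieldBar N),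
          ffi_jBar N ∈ v.toValuationSubring → f ∈ v.toValuationSubring) ∧
      (∀ f : ↥(modularFunctionFieldBar N), f ∈ ιK'.range ↔
        ∀ v : Place ff_Qb ↥(modularFunctionFieldBar N),
          (ffi_jBar N)⁻¹ ∈ v.toValuationSubring → f ∈ v.toValuationSubring) ∧
      (∀ a : ↥(ffi_A1 A L N),
        ιK (1 ⊗ₜ[↥(ffi_O A L)] a) = ffi_toBar L N (a : ↥(modularFunctionFieldFullC L N))) ∧
      (∀ b : ↥(ffi_A2 A L N),
        ιK' (1 ⊗ₜ[↥(ffi_O A L)] b) = ffi_toBar L N (b : ↥(modularFunctionFieldFullC L N))) ∧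
      IsDedekindDomain (ff_Qb ⊗[↥(ffi_O A L)] ↥(ffi_A1 A L N)) ∧
      IsDedekindDomain (ff_Qb ⊗[↥(ffi_O A L)] ↥(ffi_A2 A L N)) ∧
      (∀ (m : ℕ) (b : ff_Qb ⊗[↥(ffi_O A L)] ↥(ffi_A1 A L N))
        (b' : ff_Qb ⊗[↥(ffi_O A L)] ↥(ffi_A2 A L N)), ιK b = ffi_jBar N ^ m * ιK' b' →
        ∃ u : ff_Qb ⊗[↥(ffi_O A L)] ↥(ffi_gLam ↥(ffi_O A L) (ffi_j L N) m),
          ff_incl ↥(ffi_O A L) ↥(ffi_A1 A L N) ff_Qb (ffi_gLam ↥(ffi_O A L) (ffi_j L N)) m u = b) ∧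
      (∀ m, Function.Injective
        (ff_incl ↥(ffi_O A L) ↥(ffi_A1 A L N) ff_Qb (ffi_gLam ↥(ffi_O A L) (ffi_j L N)) m))

set_option synthInstance.maxHeartbeats 400000 in
/-- **[P-Dκ]** the chart comparisons of the SPECIAL fibre (concrete residue field
`κ_A = IsLocalRing.ResidueField A`): `κ_A ⊗ 𝒜 = 𝒜 / ℓ ≅` the `j̃`-chart of `F̃_N` by coefficientwise
reduction of `q`-expansions, the same for `𝒜'`, the gluing property for `m + 1 ≥ m0` (from the Čech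
statement of [P-FB2] and `rpn_Level0.ker`), injectivity of `κ ⊗ Λ m → κ ⊗ 𝒜` (saturation).
[`rpn_Level0`: `qint`, `ker`, `ded`; the reduced chart is Dedekind with fraction field `F̃_N`
(`rpz_isDedekindDomain`, `rpz_isFractionRing`, `rpz_quotHom_*` of `JT3/PlaceMap/Final.lean` at the
level `(L, O₁)`), integral over `κ[j̃]`, hence it IS the chart of `j̃`; `jcr_isSepGen`.] -/
def ffi_SeamDκ (N : ℕ) [NeZero N] (ℓ : ℕ) : Prop :=
  ℓ.Prime → ¬ ℓ ∣ N → ∀ A : ValuationSubring ff_Qb, A.LiesOverPrime ℓ →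
  ∀ (L : Type) [Field L] [Algebra ℚ L] [Algebra L ff_Qb] [IsScalarTower ℚ L ff_Qb]
    [IsDiscreteValuationRing ↥(ffi_O A L)],
    ffi_LvlOK A L ℓ →
    rpn_Level0 (modularFunctionFieldFullC L N) ((ℓ : ℕ) : ↥(ffi_O A L)) (ffi_j L N) →
    rpn_Level0 (modularFunctionFieldFullC L N) ((ℓ : ℕ) : ↥(ffi_O A L)) (ffi_j L N)⁻¹ →
  ∀ g n m0 : ℕ,
    ffi_IsFilt ↥(ffi_O A L) ↥(ffi_A1 A L N) (ffi_gC ↥(ffi_O A L) (ffi_j L N))
      ((ℓ : ℕ) : ↥(ffi_O A L)) (ffi_gLam ↥(ffi_O A L) (ffi_j L N))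
      (ffi_gLead ↥(ffi_O A L) (ffi_j L N)) g n m0 →
    (∀ m : ℕ, m0 ≤ m + 1 → ∀ f ∈ fc_chart ↥(ffi_O A L)
        ({ffi_j L N, (ffi_j L N)⁻¹} : Set ↥(modularFunctionFieldFullC L N)),
      ∃ a ∈ ffi_A1 A L N, ∃ b ∈ ffi_A2 A L N, f = a + ffi_j L N ^ m * b) →
    letI := ffi_algOκ A L
    ∃ (ικ : IsLocalRing.ResidueField ↥A ⊗[↥(ffi_O A L)] ↥(ffi_A1 A L N)
          →ₐ[IsLocalRing.ResidueField ↥A]
          ↥(modularFunctionFieldFullC (IsLocalRing.ResidueField ↥A) N))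
      (ικ' : IsLocalRing.ResidueField ↥A ⊗[↥(ffi_O A L)] ↥(ffi_A2 A L N)
          →ₐ[IsLocalRing.ResidueField ↥A]
          ↥(modularFunctionFieldFullC (IsLocalRing.ResidueField ↥A) N)),
      rt_IsSepGen (IsLocalRing.ResidueField ↥A) (ffi_j (IsLocalRing.ResidueField ↥A) N) ∧
      Function.Injective ικ ∧ Function.Injective ικ' ∧
      (∀ f : ↥(modularFunctionFieldFullC (IsLocalRing.ResidueField ↥A) N), f ∈ ικ.range ↔
        ∀ v : Place (IsLocalRing.ResidueField ↥A)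
            ↥(modularFunctionFieldFullC (IsLocalRing.ResidueField ↥A) N),
          ffi_j (IsLocalRing.ResidueField ↥A) N ∈ v.toValuationSubring →
            f ∈ v.toValuationSubring) ∧
      (∀ f : ↥(modularFunctionFieldFullC (IsLocalRing.ResidueField ↥A) N), f ∈ ικ'.range ↔
        ∀ v : Place (IsLocalRing.ResidueField ↥A)
            ↥(modularFunctionFieldFullC (IsLocalRing.ResidueField ↥A) N),
          (ffi_j (IsLocalRing.ResidueField ↥A) N)⁻¹ ∈ v.toValuationSubring →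
            f ∈ v.toValuationSubring) ∧
      (∀ (a : ↥(ffi_A1 A L N)) (w : LaurentSeries ↥(ffi_O A L)),
        coeffMap (algebraMap ↥(ffi_O A L) L) w =
          ((a : ↥(modularFunctionFieldFullC L N)) : LaurentSeries L) →
        ((ικ (1 ⊗ₜ[↥(ffi_O A L)] a) :
            ↥(modularFunctionFieldFullC (IsLocalRing.ResidueField ↥A) N)) :
            LaurentSeries (IsLocalRing.ResidueField ↥A)) =
          coeffMap (algebraMap ↥(ffi_O A L) (IsLocalRing.ResidueField ↥A)) w) ∧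
      (∀ (b : ↥(ffi_A2 A L N)) (w : LaurentSeries ↥(ffi_O A L)),
        coeffMap (algebraMap ↥(ffi_O A L) L) w =
          ((b : ↥(modularFunctionFieldFullC L N)) : LaurentSeries L) →
        ((ικ' (1 ⊗ₜ[↥(ffi_O A L)] b) :
            ↥(modularFunctionFieldFullC (IsLocalRing.ResidueField ↥A) N)) :
            LaurentSeries (IsLocalRing.ResidueField ↥A)) =
          coeffMap (algebraMap ↥(ffi_O A L) (IsLocalRing.ResidueField ↥A)) w) ∧
      IsDedekindDomain (IsLocalRing.ResidueField ↥A ⊗[↥(ffi_O A L)] ↥(ffi_A1 A L N)) ∧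
      ¬ IsField (IsLocalRing.ResidueField ↥A ⊗[↥(ffi_O A L)] ↥(ffi_A1 A L N)) ∧
      IsDedekindDomain (IsLocalRing.ResidueField ↥A ⊗[↥(ffi_O A L)] ↥(ffi_A2 A L N)) ∧
      (∀ (m : ℕ), m0 ≤ m + 1 →
        ∀ (b : IsLocalRing.ResidueField ↥A ⊗[↥(ffi_O A L)] ↥(ffi_A1 A L N))
        (b' : IsLocalRing.ResidueField ↥A ⊗[↥(ffi_O A L)] ↥(ffi_A2 A L N)),
        ικ b = ffi_j (IsLocalRing.ResidueField ↥A) N ^ m * ικ' b' →
        ∃ u : IsLocalRing.ResidueField ↥A ⊗[↥(ffi_O A L)]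
            ↥(ffi_gLam ↥(ffi_O A L) (ffi_j L N) m),
          ff_incl ↥(ffi_O A L) ↥(ffi_A1 A L N) (IsLocalRing.ResidueField ↥A)
            (ffi_gLam ↥(ffi_O A L) (ffi_j L N)) m u = b) ∧
      (∀ m, Function.Injective
        (ff_incl ↥(ffi_O A L) ↥(ffi_A1 A L N) (IsLocalRing.ResidueField ↥A)
          (ffi_gLam ↥(ffi_O A L) (ffi_j L N)) m))

end Fermat.Agent.FF
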