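/-
Project FF (S19), cell [INST], sub-cell [I-PKG] (architect: helper5).  THE ASSEMBLY.
`ffi_pkg_of_seams : CH → FB1 → FB2 → GN → PD → GR → DK → Dκ → ffi_SeamPKG N ℓ`.  Prefix `ffi_`.
-/
import Mathlib
import Fermat.Agent.FF.Inst.Pkg.Seams
import Fermat.Agent.JT3.Inst.LevelFinite

set_option autoImplicit false
set_option linter.style.haveILetI false
set_option linter.unusedSectionVars false

noncomputable section

namespace Fermat.Agent.FF

open ModularCurve AlgebraicCurve Fermat.Agent.JT3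
open scoped TensorProduct

section Base

variable (A : ValuationSubring ff_Qb) (L : Type) [Field L] [Algebra L ff_Qb] (ℓ : ℕ)

/-- `O₁ → κ_A` is onto. -/
theorem ffi_res_surj (lvl : ffi_LvlOK A L ℓ) :
    letI := ffi_algOκ A L
    Function.Surjective (algebraMap ↥(ffi_O A L) (IsLocalRing.ResidueField ↥A)) := by
  intro y
  obtain ⟨a, rfl⟩ := IsLocalRing.residue_surjective y
  obtain ⟨c, hcA, hc⟩ := lvl.res a
  refine ⟨⟨c, hcA⟩, ?_⟩
  show IsLocalRing.residue ↥A (ffi_OtoA A L ⟨c, hcA⟩) = IsLocalRing.residue ↥A a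
  symm
  rw [← sub_eq_zero, ← map_sub, IsLocalRing.residue_eq_zero_iff]
  rw [A.mem_nonunits_iff_exists_mem_maximalIdeal] at hc
  obtain ⟨h1, h2⟩ := hc
  exact h2

/-- an element of `O₁` is a unit iff it is a unit of `A`. -/
theorem ffi_isUnit_iff (o : ↥(ffi_O A L)) : IsUnit o ↔ IsUnit (ffi_OtoA A L o) := by
  constructor
  · intro h
    exact h.map (ffi_OtoA A L)
  · intro h
    obtain ⟨u, hu⟩ := h
    have hne : (o : L) ≠ 0 := by
      intro h0
      have h1 : ((u : ↥A) : ff_Qb) = 0 := by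
        rw [hu, ffi_OtoA_coe, h0, map_zero]
      have h2 : (u : ↥A) = 0 := Subtype.ext h1
      exact u.ne_zero h2
    have hinv : ((o : L))⁻¹ ∈ ffi_O A L := by
      rw [ffi_mem_O, map_inv₀]
      have h1 : algebraMap L ff_Qb (o : L) = ((u : ↥A) : ff_Qb) := by rw [hu]; rfl
      rw [h1]
      have h2 : (((u⁻¹ : (↥A)ˣ) : ↥A) : ff_Qb) = (((u : ↥A) : ff_Qb))⁻¹ := by
        have h3 : ((u : ↥A) : ff_Qb) * (((u⁻¹ : (↥A)ˣ) : ↥A) : ff_Qb) = 1 := by
          have h4 := congrArg (fun z : ↥A => (z : ff_Qb)) u.mul_inv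
          exact h4
        exact eq_inv_of_mul_eq_one_right h3
      rw [← h2]
      exact (↑u⁻¹ : ↥A).2
    refine ⟨⟨o, ⟨(o : L)⁻¹, hinv⟩, ?_, ?_⟩, rfl⟩
    · exact Subtype.ext (mul_inv_cancel₀ hne)
    · exact Subtype.ext (inv_mul_cancel₀ hne)

/-- the kernel of `O₁ → κ_A` is generated by `ℓ`. -/
theorem ffi_res_ker (lvl : ffi_LvlOK A L ℓ) :
    letI := ffi_algOκ A L
    RingHom.ker (algebraMap ↥(ffi_O A L) (IsLocalRing.ResidueField ↥A)) =
      Ideal.span {((ℓ : ℕ) : ↥(ffi_O A L))} := by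
  letI := ffi_algOκ A L
  haveI := lvl.dvr
  rw [← lvl.irr.maximalIdeal_eq]
  ext o
  rw [RingHom.mem_ker, IsLocalRing.mem_maximalIdeal, mem_nonunits_iff, ffi_isUnit_iff]
  show IsLocalRing.residue ↥A (ffi_OtoA A L o) = 0 ↔ _
  rw [IsLocalRing.residue_eq_zero_iff, IsLocalRing.mem_maximalIdeal, mem_nonunits_iff]

theorem ffi_algebraMap_O_Qb_injective :
    Function.Injective (algebraMap ↥(ffi_O A L) ff_Qb) := by
  intro a b hab
  rw [ffi_algebraMap_O_Qb, ffi_algebraMap_O_Qb] at hab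
  exact Subtype.ext ((algebraMap L ff_Qb).injective hab)

end Base

set_option synthInstance.maxHeartbeats 400000 in
set_option maxHeartbeats 1600000 in
/-- **[I-PKG] from its sub-seams.** -/
theorem ffi_pkg_of_seams (N : ℕ) [NeZero N] (ℓ : ℕ)
    (hCH : ffi_SeamCH N ℓ) (hFB1 : ffi_SeamFB1) (hFB2 : ffi_SeamFB2) (hGN : ffi_SeamGN)
    (hPD : ffi_SeamPD) (hGR : ffi_SeamGR) (hDK : ffi_SeamDK N ℓ) (hDκ : ffi_SeamDκ N ℓ) :
    ffi_SeamPKG N ℓ := by
  intro hℓ hℓN A hA L _ _ _ _ lvl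
  letI algκ : Algebra ↥(ffi_O A L) (IsLocalRing.ResidueField ↥A) := ffi_algOκ A L
  haveI := lvl.dvr
  haveI := lvl.algClosed
  haveI : CharZero L := algebraRat.charZero L
  obtain ⟨h1, h2⟩ := hCH hℓ hℓN A hA L lvl
  -- the filtration
  have hx0 : ffi_j L N ≠ 0 := by
    intro h
    have := lgf_level_j_transcendental L N
    exact this (by
      have : rml_jF L N = 0 := h
      rw [this]; exact isAlgebraic_zero)
  have hℓ0 : ((ℓ : ℕ) : ↥(ffi_O A L)) ≠ 0 := lvl.irr.ne_zero
  have hprime : ∀ x : ↥(modularFunctionFieldFullC L N),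
      IsDedekindDomain (↥(fc_chart ↥(ffi_O A L) ({x} : Set ↥(modularFunctionFieldFullC L N))) ⧸
        Ideal.span {algebraMap ↥(ffi_O A L)
          ↥(fc_chart ↥(ffi_O A L) ({x} : Set ↥(modularFunctionFieldFullC L N)))
          ((ℓ : ℕ) : ↥(ffi_O A L))}) →
      Prime (algebraMap ↥(ffi_O A L)
        ↥(fc_chart ↥(ffi_O A L) ({x} : Set ↥(modularFunctionFieldFullC L N)))
        ((ℓ : ℕ) : ↥(ffi_O A L))) := by
    intro x hded
    have hne : algebraMap ↥(ffi_O A L)
        ↥(fc_chart ↥(ffi_O A L) ({x} : Set ↥(modularFunctionFieldFullC L N)))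
        ((ℓ : ℕ) : ↥(ffi_O A L)) ≠ 0 := by
      intro h0
      apply hℓ0
      have h3 : Function.Injective (algebraMap ↥(ffi_O A L)
          ↥(fc_chart ↥(ffi_O A L) ({x} : Set ↥(modularFunctionFieldFullC L N)))) := by
        intro a b hab
        have := congrArg (fun z : ↥(fc_chart ↥(ffi_O A L)
          ({x} : Set ↥(modularFunctionFieldFullC L N))) =>
            ((z : ↥(modularFunctionFieldFullC L N)) : LaurentSeries L)) hab
        have h4 : Function.Injective (algebraMap L (LaurentSeries L)) :=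
          (algebraMap L (LaurentSeries L)).injective
        exact Subtype.ext (h4 this)
      exact h3 (by rw [h0, map_zero])
    rw [← Ideal.span_singleton_prime hne, ← Ideal.Quotient.isDomain_iff_prime]
    exact hded.toIsDomain
  have hFA : ffi_IsFiltA ↥(ffi_O A L) (ffi_j L N) ((ℓ : ℕ) : ↥(ffi_O A L)) :=
    hFB1 ↥(ffi_O A L) L ↥(modularFunctionFieldFullC L N) _ lvl.irr (ffi_j L N)
      (lgf_level_j_transcendental L N)
      (fun z hz => lgf_hconst (modularFunctionFieldFullC L N) z hz)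
      h1.fin h2.fin (hprime _ h1.ded) (hprime _ h2.ded)
  obtain ⟨g, n, m0, hF, hcech⟩ :=
    hFB2 ↥(ffi_O A L) ↥(modularFunctionFieldFullC L N) _ lvl.irr (ffi_j L N) hx0 h2.fin hFA
  -- the generic fibre
  obtain ⟨ιK, ιK', sepK, injK, injK', chK, chK', cpK, cpK', dedK, dedK', glK, inclK⟩ :=
    hDK hGN hℓ hℓN A hA L lvl
  have preK := hPD ↥(ffi_O A L) ↥(modularFunctionFieldFullC L N) _ (ffi_j L N) g n m0 hx0 hF
    ff_Qb ↥(modularFunctionFieldBar N) (ffi_jBar N) ιK ιK' 0 sepK injK injK' chK chK'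
    (fun a b m hab => by
      rw [cpK, cpK', hab, map_mul, map_pow, ffi_toBar_j])
    dedK' (fun m _ b b' h => glK m b b' h) inclK
  obtain ⟨dictK, -⟩ := hGR ↥(ffi_O A L) _ _ _ _ _ g n m0 lvl.irr hF ff_Qb
    ↥(modularFunctionFieldBar N) (ffi_jBar N) ιK 0 dedK preK
  -- the special fibre
  obtain ⟨ικ, ικ', sepκ, injκ, injκ', chκ, chκ', cpκ, cpκ', dedκ, nfκ, dedκ', glκ, inclκ⟩ :=
    hDκ hℓ hℓN A hA L lvl h1 h2 g n m0 hF hcech
  have hxκ : ∀ w : LaurentSeries ↥(ffi_O A L),
      coeffMap (algebraMap ↥(ffi_O A L) L) w = jqModC L →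
      coeffMap (algebraMap ↥(ffi_O A L) (IsLocalRing.ResidueField ↥A)) w =
        jqModC (IsLocalRing.ResidueField ↥A) := by
    intro w hw
    have h3 : coeffMap (algebraMap ↥(ffi_O A L) L) w =
        coeffMap (algebraMap ↥(ffi_O A L) L) (jqModC ↥(ffi_O A L)) := by
      rw [hw, coeffMap_jqModC]
    have hinj : Function.Injective (coeffMap (algebraMap ↥(ffi_O A L) L)) := by
      intro a b hab
      ext i
      have := congrArg (fun z : LaurentSeries L => z.coeff i) hab
      simp only [coeffMap_coeff] at this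
      exact this
    rw [hinj h3, coeffMap_jqModC]
  have preκ := hPD ↥(ffi_O A L) ↥(modularFunctionFieldFullC L N) _ (ffi_j L N) g n m0 hx0 hF
    (IsLocalRing.ResidueField ↥A) ↥(modularFunctionFieldFullC (IsLocalRing.ResidueField ↥A) N)
    (ffi_j (IsLocalRing.ResidueField ↥A) N) ικ ικ' m0 sepκ injκ injκ' chκ chκ'
    (fun a b m hab => by
      obtain ⟨wa, hwa⟩ := h1.qint a a.2
      obtain ⟨wb, hwb⟩ := h2.qint b b.2
      apply Subtype.ext
      rw [cpκ a wa hwa]
      have hj : ((ffi_j (IsLocalRing.ResidueField ↥A) N ^ m * ικ' (1 ⊗ₜ[↥(ffi_O A L)] b) :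
          ↥(modularFunctionFieldFullC (IsLocalRing.ResidueField ↥A) N)) :
          LaurentSeries (IsLocalRing.ResidueField ↥A)) =
          jqModC (IsLocalRing.ResidueField ↥A) ^ m *
            coeffMap (algebraMap ↥(ffi_O A L) (IsLocalRing.ResidueField ↥A)) wb := by
        rw [← cpκ' b wb hwb]
        rfl
      rw [hj, ← hxκ (jqModC ↥(ffi_O A L)) (coeffMap_jqModC _), ← map_pow, ← map_mul]
      congr 1
      have hinj : Function.Injective (coeffMap (algebraMap ↥(ffi_O A L) L)) := by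
        intro a b hab
        ext i
        have := congrArg (fun z : LaurentSeries L => z.coeff i) hab
        simp only [coeffMap_coeff] at this
        exact this
      apply hinj
      rw [hwa, map_mul, map_pow, hwb, coeffMap_jqModC]
      have := congrArg (fun z : ↥(modularFunctionFieldFullC L N) => (z : LaurentSeries L)) hab
      exact this)
    dedκ' (fun m hm b b' h => glκ m (Nat.le_succ_of_le hm) b b' h) inclκ
  obtain ⟨dictκ, c0, hrie⟩ := hGR ↥(ffi_O A L) _ _ _ _ _ g n m0 lvl.irr hF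
    (IsLocalRing.ResidueField ↥A) ↥(modularFunctionFieldFullC (IsLocalRing.ResidueField ↥A) N)
    (ffi_j (IsLocalRing.ResidueField ↥A) N) ικ m0 dedκ preκ
  refine ⟨g, n, m0, c0, ιK, ικ, ?_⟩
  exact
    { pkg := ffi_isPkg_of_filt c0 hF lvl.irr (ffi_res_surj A L ℓ lvl) (ffi_res_ker A L ℓ lvl)
        (ffi_algebraMap_O_Qb_injective A L) dedκ nfκ dedK hrie
      dictK := dictK
      dictκ := dictκ
      qint := fun a => h1.qint a a.2
      compatK := cpK
      compatκ := cpκ }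

end Fermat.Agent.FF
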