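/-
Project FF (S19), cell [INST], leaf [P-DK] (helper28): THE GENERIC FIBRE.  Prefix `ffi_dk_`.

`theorem ffi_dk (N) [NeZero N] (ℓ) : ffi_SeamDK N ℓ` — the chart comparisons of the generic fibre of
the modular model: `Q̄ ⊗_{O₁} 𝒜 ≅` the `j`-chart of `F̄_N`, `Q̄ ⊗_{O₁} 𝒜' ≅` the `j⁻¹`-chart (both Dedekind),
gluing for all `m`, injectivity of `Q̄ ⊗ Λ m → Q̄ ⊗ 𝒜`.

Abstract part: `FF/Inst/Pkg/DK/Abstract.lean`; modular inputs (linear disjointness of `Q̄` and
`L((q))` over `L`, `F̄_N = Q̄ · F_L`, the coefficientwise Galois action): `FF/Inst/Pkg/DK/Modular.lean`.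
-/
import Mathlib
import Fermat.Agent.FF.Inst.Pkg.Seams
import Fermat.Agent.FF.Inst.Pkg.DK.Abstract
import Fermat.Agent.FF.Inst.Pkg.DK.Modular

set_option autoImplicit false
set_option linter.unusedSectionVars false
set_option linter.style.haveILetI false

noncomputable section

namespace Fermat.Agent.FF

open ModularCurve AlgebraicCurve Fermat.Agent.JT3 Fermat.Agent.S24
open scoped TensorProduct

/-- `j` is a separating generator of `F̄_N / Q̄`. -/
theorem ffi_dk_isSepGen (N : ℕ) [NeZero N] : rt_IsSepGen ff_Qb (ffi_jBar N) := by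
  have h : ffi_jBar N = br_jBar N := by
    apply Subtype.ext
    rw [ffi_jBar_coe, coe_br_jBar, br_jqK, coeffEmb, ← jqModC_rat, coeffMap_jqModC]
  rw [h]
  exact rt_isSepGen_jBar N

attribute [local instance] ffi_dk_algOBar ffi_dk_towerOBar

/-- **[P-DK]** the generic fibre of the modular model. -/
theorem ffi_dk (N : ℕ) [NeZero N] (ℓ : ℕ) : ffi_SeamDK N ℓ := by
  intro hGN _ _ A _ L _ _ _ _ _ lvl
  have hsep : rt_IsSepGen ff_Qb (ffi_jBar N) := ffi_dk_isSepGen N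
  have hLD := ffi_dk_ld A L N
  have hφj : ffi_dk_phi A L N (ffi_j L N) = ffi_jBar N := ffi_toBar_j L N
  have hφj' : ffi_dk_phi A L N (ffi_j L N)⁻¹ = (ffi_jBar N)⁻¹ := by
    rw [map_inv₀, hφj]
  have hj0 : ffi_j L N ≠ 0 := by
    intro h0
    have h1 := hφj
    rw [h0, map_zero] at h1
    have h2 := hsep.1
    rw [← h1] at h2
    exact h2 (isAlgebraic_zero)
  have hsep1 : rt_IsSepGen ff_Qb (ffi_dk_phi A L N (ffi_j L N)) := by rw [hφj]; exact hsep
  have hsep2 : rt_IsSepGen ff_Qb (ffi_dk_phi A L N (ffi_j L N)⁻¹) := by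
    rw [hφj']; exact hsep.inv
  have hGN1 := ffi_dk_gn L N hGN (ffi_j L N)
  have hGN2 := ffi_dk_gn L N hGN (ffi_j L N)⁻¹
  refine ⟨ffi_dk_iota (ffi_dk_phi A L N) (ffi_A1 A L N),
    ffi_dk_iota (ffi_dk_phi A L N) (ffi_A2 A L N), hsep,
    ffi_dk_iota_injective hLD _, ffi_dk_iota_injective hLD _, ?_, ?_, ?_, ?_, ?_, ?_, ?_, ?_⟩
  · intro f
    have := ffi_dk_range_iff (φ := ffi_dk_phi A L N) lvl.irr (ffi_j L N) hsep1 hGN1 f
    rw [hφj] at this
    exact this
  · intro f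
    have := ffi_dk_range_iff (φ := ffi_dk_phi A L N) lvl.irr (ffi_j L N)⁻¹ hsep2 hGN2 f
    rw [hφj'] at this
    exact this
  · intro a
    rw [ffi_dk_iota_tmul, map_one, one_mul]
    rfl
  · intro b
    rw [ffi_dk_iota_tmul, map_one, one_mul]
    rfl
  · exact ffi_dk_isDedekindDomain lvl.irr hLD (ffi_j L N) hsep1 hGN1
  · exact ffi_dk_isDedekindDomain lvl.irr hLD (ffi_j L N)⁻¹ hsep2 hGN2
  · intro m b b' h
    rw [← hφj] at h
    exact ffi_dk_glue hLD (ffi_j L N) hj0 m b b' h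
  · intro m
    exact ffi_dk_incl_injective hLD (ffi_j L N) m

end Fermat.Agent.FF
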