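/-
Project FF (S19), cell [INST], leaf [P-FB]: THE FILTRATION ALGEBRA OF A TWO-CHART MODEL
(helper16).  Prefix `ffi_fb_`.

`O` a commutative ring, `F ⊇ O` a field, `x ∈ F`, `𝒜 = fc_chart O {x}`, `𝒜' = fc_chart O {x⁻¹}`,
`t = x⁻¹`, `Λ m = ffi_gLam O x m = 𝒜 ∩ x^m 𝒜'`, `C = ffi_gC O x = 𝒜' / (t)`,
`lead m = ffi_gLead O x m : Λ m → C`.

Every NON-Riemann field of `ff_IsPkg` for `(Λ, C, lead)`:
`mono`, `exh`, `one_mem`, `zero_const`, `mul_mem`, `sat`, `Cfin`, `Cfree`, `lead_ker`, `lead_zero`,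
`lead_one`, `lead_mul`, and `fg` — by induction on `m` (`Λ 0 = O`, `Λ (m+1) / Λ m ↪ C`).

Hypotheses (theorems of JT3 in the modular instance):
* `hp' : Prime (algebraMap O 𝒜' π)` (`cn_prime_funField`) and `hπt : ¬ π ∣ t` in `𝒜'`;
* `hfin' : ffi_fb_FinOver (Algebra.adjoin O {x⁻¹}) 𝒜'` (`fc_ff_finite`, bridge
  `ffi_fb_finOver_of_finite`);
* `hconst : 𝒜 ∩ 𝒜' = O` and `x` is not a constant.
-/
import Mathlib
import Fermat.Agent.FF.Inst.Defs

set_option autoImplicit false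
set_option linter.unusedSectionVars false
set_option linter.style.haveILetI false

noncomputable section

namespace Fermat.Agent.FF

open Fermat.Agent.JT3 Polynomial

universe u v

/-! ### finiteness in elementwise form -/

section FinOver

variable {O : Type u} [CommRing O] {F : Type v} [Field F] [Algebra O F]

/-- `B` is spanned over the subalgebra `R` by finitely many elements (the elementwise form of
`Module.Finite R B` for subalgebras of a field). -/
def ffi_fb_FinOver (R B : Subalgebra O F) : Prop :=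
  ∃ s : Finset F, (∀ b ∈ s, b ∈ B) ∧
    ∀ z ∈ B, ∃ c : F → F, (∀ b, c b ∈ R) ∧ z = ∑ b ∈ s, c b * b

/-- bridge from `Module.Finite` (the output of `fc_ff_finite`). -/
theorem ffi_fb_finOver_of_finite (y : F)
    (h : Module.Finite (Algebra.adjoin O ({y} : Set F))
      (integralClosure (Algebra.adjoin O ({y} : Set F)) F)) :
    ffi_fb_FinOver (Algebra.adjoin O ({y} : Set F)) (fc_chart O ({y} : Set F)) := by
  classical
  obtain ⟨S, hS⟩ := h.fg_top
  refine ⟨S.image Subtype.val, ?_, ?_⟩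
  · intro b hb
    obtain ⟨i, -, rfl⟩ := Finset.mem_image.1 hb
    exact i.2
  · intro z hz
    have hz' : (⟨z, hz⟩ : integralClosure (Algebra.adjoin O ({y} : Set F)) F) ∈
        Submodule.span (Algebra.adjoin O ({y} : Set F)) (S : Set _) := by
      rw [hS]; exact Submodule.mem_top
    obtain ⟨f, hf⟩ := Submodule.mem_span_finset.1 hz'
    refine ⟨fun b => if hb : b ∈ integralClosure (Algebra.adjoin O ({y} : Set F)) F then
      ((f ⟨b, hb⟩ : Algebra.adjoin O ({y} : Set F)) : F) else 0, ?_, ?_⟩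
    · intro b
      show (if hb : b ∈ integralClosure (Algebra.adjoin O ({y} : Set F)) F then
        ((f ⟨b, hb⟩ : Algebra.adjoin O ({y} : Set F)) : F) else 0) ∈ _
      by_cases hb : b ∈ integralClosure (Algebra.adjoin O ({y} : Set F)) F
      · rw [dif_pos hb]; exact (f ⟨b, hb⟩).2
      · rw [dif_neg hb]; exact zero_mem _
    · rw [Finset.sum_image (fun a _ b _ hab => Subtype.ext hab)]
      have := congrArg Subtype.val hf.2
      simp only at this
      rw [← this, AddSubmonoidClass.coe_finsetSum]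
      refine Finset.sum_congr rfl fun i _ => ?_
      show _ = (if hb : (i : F) ∈ integralClosure (Algebra.adjoin O ({y} : Set F)) F then
        ((f ⟨(i : F), hb⟩ : Algebra.adjoin O ({y} : Set F)) : F) else 0) * (i : F)
      rw [dif_pos i.2]
      rfl

/-- bridge from the span form (the form of the seams `ffi_SeamFB1`, `ffi_SeamFB2`). -/
theorem ffi_fb_finOver_of_span (y : F)
    (h : ∃ G : Finset F, (∀ g ∈ G, g ∈ fc_chart O ({y} : Set F)) ∧
      ∀ b ∈ fc_chart O ({y} : Set F),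
        b ∈ Submodule.span ↥(Algebra.adjoin O ({y} : Set F)) (G : Set F)) :
    ffi_fb_FinOver (Algebra.adjoin O ({y} : Set F)) (fc_chart O ({y} : Set F)) := by
  obtain ⟨G, hG, hspan⟩ := h
  refine ⟨G, hG, fun z hz => ?_⟩
  obtain ⟨f, hf⟩ := Submodule.mem_span_finset.1 (hspan z hz)
  refine ⟨fun b => ((f b : ↥(Algebra.adjoin O ({y} : Set F))) : F), fun b => (f b).2, ?_⟩
  rw [← hf.2]
  rfl

/-- a chart finite over its coordinate ring is an `O`-algebra of finite type. -/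
theorem ffi_fb_ft (y : F)
    (h : ffi_fb_FinOver (Algebra.adjoin O ({y} : Set F)) (fc_chart O ({y} : Set F))) :
    Algebra.FiniteType O ↥(fc_chart O ({y} : Set F)) := by
  classical
  obtain ⟨s, hs, hspan⟩ := h
  rw [← Subalgebra.fg_iff_finiteType]
  refine ⟨insert y s, le_antisymm ?_ ?_⟩
  · refine Algebra.adjoin_le ?_
    intro b hb
    rw [Finset.coe_insert, Set.mem_insert_iff] at hb
    rcases hb with rfl | hb
    · exact fc_x_mem_chart _
    · exact hs b hb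
  · intro z hz
    obtain ⟨c, hc, rfl⟩ := hspan z hz
    refine sum_mem fun b hb => mul_mem ?_ (Algebra.subset_adjoin ?_)
    · refine Algebra.adjoin_mono ?_ (hc b)
      intro w hw
      rw [Set.mem_singleton_iff] at hw
      rw [hw, Finset.coe_insert]
      exact Set.mem_insert _ _
    · rw [Finset.coe_insert]
      exact Set.mem_insert_of_mem _ hb

end FinOver

/-! ### the pure algebra of the filtration -/

section Alg

variable (O : Type u) [CommRing O] {F : Type v} [Field F] [Algebra O F] (x : F)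

theorem ffi_fb_t_mem : x⁻¹ ∈ fc_chart O ({x⁻¹} : Set F) := fc_x_mem_chart x⁻¹

theorem ffi_fb_gT_coe : ((ffi_gT O x : ↥(fc_chart O ({x⁻¹} : Set F))) : F) = x⁻¹ := rfl

theorem ffi_fb_gX_coe : ((ffi_gX O x : ↥(fc_chart O ({x} : Set F))) : F) = x := rfl

/-- `Λ m ⊆ Λ (m+1)` -/
theorem ffi_fb_le_succ (m : ℕ) : ffi_gLam O x m ≤ ffi_gLam O x (m + 1) := by
  intro a ha
  rw [ffi_mem_gLam] at ha ⊢
  rw [pow_succ, ← mul_assoc]
  exact mul_mem ha (ffi_fb_t_mem O x)

/-- **mono** -/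
theorem ffi_fb_mono : Monotone (ffi_gLam O x) :=
  monotone_nat_of_le_succ (ffi_fb_le_succ O x)

/-- **one_mem** -/
theorem ffi_fb_one_mem : (1 : ↥(fc_chart O ({x} : Set F))) ∈ ffi_gLam O x 0 := by
  rw [ffi_mem_gLam, pow_zero, mul_one]
  exact (fc_chart O ({x⁻¹} : Set F)).one_mem

/-- **mul_mem** -/
theorem ffi_fb_mul_mem (a b : ℕ) (y z : ↥(fc_chart O ({x} : Set F)))
    (hy : y ∈ ffi_gLam O x a) (hz : z ∈ ffi_gLam O x b) : y * z ∈ ffi_gLam O x (a + b) := by
  rw [ffi_mem_gLam] at hy hz ⊢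
  have : ((y * z : ↥(fc_chart O ({x} : Set F))) : F) * x⁻¹ ^ (a + b) =
      ((y : F) * x⁻¹ ^ a) * ((z : F) * x⁻¹ ^ b) := by
    rw [pow_add]; push_cast; ring
  rw [this]
  exact mul_mem hy hz

/-- **exh** -/
theorem ffi_fb_exh (hx0 : x ≠ 0) (a : ↥(fc_chart O ({x} : Set F))) :
    ∃ m, a ∈ ffi_gLam O x m := by
  obtain ⟨k, hk⟩ := fc_clear2 (A0 := O) hx0 (fc_chart1_le x a.2)
  refine ⟨k, ?_⟩
  rw [ffi_mem_gLam, mul_comm]
  exact hk

/-- **lead_ker** -/
theorem ffi_fb_lead_ker (hx0 : x ≠ 0) (m : ℕ) (a : ↥(ffi_gLam O x (m + 1))) :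
    ffi_gLead O x (m + 1) a = 0 ↔ (a : ↥(fc_chart O ({x} : Set F))) ∈ ffi_gLam O x m := by
  rw [ffi_gLead_apply, Ideal.Quotient.eq_zero_iff_mem, Ideal.mem_span_singleton', ffi_mem_gLam]
  constructor
  · rintro ⟨b, hb⟩
    have h : (b : F) * x⁻¹ = ((a : ↥(fc_chart O ({x} : Set F))) : F) * x⁻¹ ^ (m + 1) :=
      congrArg Subtype.val hb
    have h' : (b : F) * x⁻¹ =
        ((a : ↥(fc_chart O ({x} : Set F))) : F) * x⁻¹ ^ m * x⁻¹ := by
      rw [h, pow_succ, mul_assoc]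
    have := mul_right_cancel₀ (inv_ne_zero hx0) h'
    rw [← this]
    exact b.2
  · intro h
    refine ⟨⟨_, h⟩, Subtype.ext ?_⟩
    show ((a : ↥(fc_chart O ({x} : Set F))) : F) * x⁻¹ ^ m * x⁻¹ =
      ((a : ↥(fc_chart O ({x} : Set F))) : F) * x⁻¹ ^ (m + 1)
    rw [pow_succ, mul_assoc]

/-- **lead_one** -/
theorem ffi_fb_lead_one : ffi_gLead O x 0 ⟨1, ffi_fb_one_mem O x⟩ = 1 := by
  rw [ffi_gLead_apply]
  have : (⟨((1 : ↥(fc_chart O ({x} : Set F))) : F) * x⁻¹ ^ 0, (⟨1, ffi_fb_one_mem O x⟩ :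
      ↥(ffi_gLam O x 0)).2⟩ : ↥(fc_chart O ({x⁻¹} : Set F))) = 1 :=
    Subtype.ext (by simp)
  rw [this, map_one]

/-- **lead_mul** -/
theorem ffi_fb_lead_mul (a b : ℕ) (y : ↥(ffi_gLam O x a)) (z : ↥(ffi_gLam O x b)) :
    ffi_gLead O x (a + b) ⟨(y : ↥(fc_chart O ({x} : Set F))) * (z : ↥(fc_chart O ({x} : Set F))),
      ffi_fb_mul_mem O x a b y z y.2 z.2⟩ = ffi_gLead O x a y * ffi_gLead O x b z := by
  rw [ffi_gLead_apply, ffi_gLead_apply, ffi_gLead_apply, ← map_mul]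
  congr 1
  apply Subtype.ext
  show (((y : ↥(fc_chart O ({x} : Set F))) * (z : ↥(fc_chart O ({x} : Set F))) :
    ↥(fc_chart O ({x} : Set F))) : F) * x⁻¹ ^ (a + b) = _
  rw [pow_add]
  push_cast
  ring

/-- **zero_const** from `𝒜 ∩ 𝒜' = O`. -/
theorem ffi_fb_zero_const
    (hconst : ∀ a : ↥(fc_chart O ({x} : Set F)), (a : F) ∈ fc_chart O ({x⁻¹} : Set F) →
      ∃ o : O, a = algebraMap O ↥(fc_chart O ({x} : Set F)) o)
    (a : ↥(fc_chart O ({x} : Set F))) (ha : a ∈ ffi_gLam O x 0) :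
    ∃ o : O, a = algebraMap O ↥(fc_chart O ({x} : Set F)) o := by
  rw [ffi_mem_gLam, pow_zero, mul_one] at ha
  exact hconst a ha

/-- **lead_zero** -/
theorem ffi_fb_lead_zero (hx0 : x ≠ 0)
    (hconst : ∀ a : ↥(fc_chart O ({x} : Set F)), (a : F) ∈ fc_chart O ({x⁻¹} : Set F) →
      ∃ o : O, a = algebraMap O ↥(fc_chart O ({x} : Set F)) o)
    (hnc : ∀ o : O, algebraMap O F o ≠ 0 → algebraMap O F o * x ∉ fc_chart O ({x⁻¹} : Set F))
    (a : ↥(ffi_gLam O x 0)) (h : ffi_gLead O x 0 a = 0) : a = 0 := by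
  rw [ffi_gLead_apply, Ideal.Quotient.eq_zero_iff_mem, Ideal.mem_span_singleton'] at h
  obtain ⟨b, hb⟩ := h
  have hb' : (b : F) * x⁻¹ = ((a : ↥(fc_chart O ({x} : Set F))) : F) := by
    have h1 : (b : F) * x⁻¹ = ((a : ↥(fc_chart O ({x} : Set F))) : F) * x⁻¹ ^ 0 :=
      congrArg Subtype.val hb
    rw [h1, pow_zero, mul_one]
  obtain ⟨o, ho⟩ := ffi_fb_zero_const O x hconst a a.2
  have hoF : ((a : ↥(fc_chart O ({x} : Set F))) : F) = algebraMap O F o := by
    rw [ho]; rfl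
  by_cases h0 : algebraMap O F o = 0
  · apply Subtype.ext
    apply Subtype.ext
    rw [hoF, h0]; rfl
  · exfalso
    apply hnc o h0
    have : algebraMap O F o * x = (b : F) := by
      rw [← hoF, ← hb', mul_assoc, inv_mul_cancel₀ hx0, mul_one]
    rw [this]
    exact b.2

/-- **sat** (`π` prime in `𝒜'`, `π ∤ t`) -/
theorem ffi_fb_sat (hx0 : x ≠ 0) {π : O}
    (hp' : Prime (algebraMap O ↥(fc_chart O ({x⁻¹} : Set F)) π))
    (hπt : ¬ algebraMap O ↥(fc_chart O ({x⁻¹} : Set F)) π ∣ ffi_gT O x)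
    (m : ℕ) (a : ↥(fc_chart O ({x} : Set F))) (ha : π • a ∈ ffi_gLam O x m) :
    a ∈ ffi_gLam O x m := by
  rw [ffi_mem_gLam] at ha ⊢
  have hπF : algebraMap O F π ≠ 0 := by
    intro h0
    apply hp'.ne_zero
    apply Subtype.ext
    exact h0
  have hcoe : ((π • a : ↥(fc_chart O ({x} : Set F))) : F) = algebraMap O F π * (a : F) := by
    rw [Subalgebra.coe_smul, Algebra.smul_def]
  rw [hcoe] at ha
  have hz12 : (a : F) * x⁻¹ ^ m ∈ fc_chart O ({x, x⁻¹} : Set F) :=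
    mul_mem (fc_chart1_le x a.2) (pow_mem (fc_chart2_le x (ffi_fb_t_mem O x)) m)
  obtain ⟨k, hk⟩ := fc_clear2 (A0 := O) hx0 hz12
  set u : ↥(fc_chart O ({x⁻¹} : Set F)) := ⟨algebraMap O F π * (a : F) * x⁻¹ ^ m, ha⟩ with hu
  set w : ↥(fc_chart O ({x⁻¹} : Set F)) := ⟨x⁻¹ ^ k * ((a : F) * x⁻¹ ^ m), hk⟩ with hw
  have hrel : ffi_gT O x ^ k * u = algebraMap O ↥(fc_chart O ({x⁻¹} : Set F)) π * w := by
    apply Subtype.ext
    show x⁻¹ ^ k * (algebraMap O F π * (a : F) * x⁻¹ ^ m) =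
      algebraMap O F π * (x⁻¹ ^ k * ((a : F) * x⁻¹ ^ m))
    ring
  have hdvd : algebraMap O ↥(fc_chart O ({x⁻¹} : Set F)) π ∣ ffi_gT O x ^ k * u :=
    ⟨w, hrel⟩
  rcases hp'.dvd_or_dvd hdvd with h | h
  · exact absurd (hp'.dvd_of_dvd_pow h) hπt
  · obtain ⟨u', hu'⟩ := h
    have h2 : algebraMap O F π * (a : F) * x⁻¹ ^ m = algebraMap O F π * (u' : F) :=
      congrArg Subtype.val hu'
    have h3 : (a : F) * x⁻¹ ^ m = (u' : F) := by
      rw [mul_assoc] at h2
      exact mul_left_cancel₀ hπF h2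
    rw [h3]
    exact u'.2

/-- an element of `O[y]` is a constant plus a multiple of `y`. -/
theorem ffi_fb_adjoin_decomp (y : F) {p : F} (hp : p ∈ Algebra.adjoin O ({y} : Set F)) :
    ∃ (o : O) (r : F), r ∈ Algebra.adjoin O ({y} : Set F) ∧ p = algebraMap O F o + y * r := by
  induction hp using Algebra.adjoin_induction with
  | mem z hz =>
    rw [Set.mem_singleton_iff] at hz
    exact ⟨0, 1, one_mem _, by rw [hz, map_zero, zero_add, mul_one]⟩
  | algebraMap o => exact ⟨o, 0, zero_mem _, by rw [mul_zero, add_zero]⟩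
  | add p q _ _ hp hq =>
    obtain ⟨o1, r1, hr1, rfl⟩ := hp
    obtain ⟨o2, r2, hr2, rfl⟩ := hq
    exact ⟨o1 + o2, r1 + r2, add_mem hr1 hr2, by rw [map_add]; ring⟩
  | mul p q hpm _ hp hq =>
    obtain ⟨o1, r1, hr1, rfl⟩ := hp
    obtain ⟨o2, r2, hr2, rfl⟩ := hq
    have hy : y ∈ Algebra.adjoin O ({y} : Set F) := Algebra.subset_adjoin rfl
    refine ⟨o1 * o2, algebraMap O F o1 * r2 + r1 * algebraMap O F o2 + y * r1 * r2, ?_, ?_⟩
    · refine add_mem (add_mem (mul_mem (Subalgebra.algebraMap_mem _ _) hr2)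
        (mul_mem hr1 (Subalgebra.algebraMap_mem _ _))) (mul_mem (mul_mem hy hr1) hr2)
    · rw [map_mul]; ring

/-- **Cfin**: `C = 𝒜' / (t)` is a finite `O`-module. -/
theorem ffi_fb_Cfin
    (hfin' : ffi_fb_FinOver (Algebra.adjoin O ({x⁻¹} : Set F)) (fc_chart O ({x⁻¹} : Set F))) :
    Module.Finite O (ffi_gC O x) := by
  classical
  obtain ⟨s, hs, hspan⟩ := hfin'
  let g : F → ffi_gC O x := fun b =>
    if h : b ∈ fc_chart O ({x⁻¹} : Set F) then Ideal.Quotient.mk _ ⟨b, h⟩ else 0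
  let φ : ↥(fc_chart O ({x⁻¹} : Set F)) →ₗ[O] ffi_gC O x :=
    (Ideal.Quotient.mkₐ O (Ideal.span {ffi_gT O x})).toLinearMap
  have hφ : ∀ b, φ b = Ideal.Quotient.mk _ b := fun _ => rfl
  rw [Module.finite_def]
  refine ⟨s.image g, ?_⟩
  rw [eq_top_iff]
  rintro c -
  obtain ⟨z, rfl⟩ := Ideal.Quotient.mk_surjective c
  set P : Submodule O (ffi_gC O x) := Submodule.span O ((s.image g : Finset _) : Set _) with hP
  -- the submodule of `F` of elements of `𝒜'` whose class lies in `P`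
  let QF : Submodule O F := (P.comap φ).map (fc_chart O ({x⁻¹} : Set F)).val.toLinearMap
  have hQF : ∀ y : F, y ∈ QF ↔ ∃ h : y ∈ fc_chart O ({x⁻¹} : Set F),
      Ideal.Quotient.mk (Ideal.span {ffi_gT O x}) ⟨y, h⟩ ∈ P := by
    intro y
    constructor
    · rintro ⟨y', hy', rfl⟩
      exact ⟨y'.2, hy'⟩
    · rintro ⟨h, hy⟩
      exact ⟨⟨y, h⟩, hy, rfl⟩
  have hle : Algebra.adjoin O ({x⁻¹} : Set F) ≤ fc_chart O ({x⁻¹} : Set F) := fc_adjoin_le_chart _
  have hterm : ∀ b ∈ s, ∀ c : F, c ∈ Algebra.adjoin O ({x⁻¹} : Set F) → c * b ∈ QF := by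
    intro b hb c hc
    obtain ⟨o, r, hr, rfl⟩ := ffi_fb_adjoin_decomp O x⁻¹ hc
    have hbB := hs b hb
    rw [hQF]
    have hmem : (algebraMap O F o + x⁻¹ * r) * b ∈ fc_chart O ({x⁻¹} : Set F) :=
      mul_mem (hle (add_mem (Subalgebra.algebraMap_mem _ _)
        (mul_mem (Algebra.subset_adjoin rfl) hr))) hbB
    refine ⟨hmem, ?_⟩
    have hdec : (⟨(algebraMap O F o + x⁻¹ * r) * b, hmem⟩ : ↥(fc_chart O ({x⁻¹} : Set F))) =
        o • ⟨b, hbB⟩ + ⟨r * b, mul_mem (hle hr) hbB⟩ * ffi_gT O x := by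
      apply Subtype.ext
      show (algebraMap O F o + x⁻¹ * r) * b = o • b + r * b * x⁻¹
      rw [Algebra.smul_def]; ring
    rw [hdec, map_add, map_mul]
    have h0 : Ideal.Quotient.mk (Ideal.span {ffi_gT O x}) (ffi_gT O x) = 0 :=
      Ideal.Quotient.eq_zero_iff_mem.2 (Ideal.mem_span_singleton_self _)
    rw [h0, mul_zero, add_zero]
    have : Ideal.Quotient.mk (Ideal.span {ffi_gT O x}) (o • ⟨b, hbB⟩) =
        o • Ideal.Quotient.mk (Ideal.span {ffi_gT O x}) ⟨b, hbB⟩ := rfl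
    rw [this]
    refine P.smul_mem o (Submodule.subset_span ?_)
    rw [Finset.coe_image]
    refine ⟨b, hb, ?_⟩
    exact dif_pos hbB
  obtain ⟨c, hc, hz⟩ := hspan z z.2
  have hzQ : (z : F) ∈ QF := by
    rw [hz]
    exact QF.sum_mem fun b hb => hterm b hb (c b) (hc b)
  obtain ⟨h, hz'⟩ := (hQF _).1 hzQ
  exact hz'

/-- `C` has no `π`-torsion. -/
theorem ffi_fb_Ctors {π : O}
    (hp' : Prime (algebraMap O ↥(fc_chart O ({x⁻¹} : Set F)) π))
    (hπt : ¬ algebraMap O ↥(fc_chart O ({x⁻¹} : Set F)) π ∣ ffi_gT O x)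
    (c : ffi_gC O x) (h : π • c = 0) : c = 0 := by
  obtain ⟨b, rfl⟩ := Ideal.Quotient.mk_surjective c
  have h1 : Ideal.Quotient.mk (Ideal.span {ffi_gT O x})
      (algebraMap O ↥(fc_chart O ({x⁻¹} : Set F)) π * b) = 0 := by
    rw [← Algebra.smul_def]; exact h
  rw [Ideal.Quotient.eq_zero_iff_mem, Ideal.mem_span_singleton'] at h1
  obtain ⟨b', hb'⟩ := h1
  have hdvd : algebraMap O ↥(fc_chart O ({x⁻¹} : Set F)) π ∣ b' * ffi_gT O x := ⟨b, hb'⟩
  rcases hp'.dvd_or_dvd hdvd with hd | hd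
  · obtain ⟨b'', rfl⟩ := hd
    have h2 : algebraMap O ↥(fc_chart O ({x⁻¹} : Set F)) π * (b'' * ffi_gT O x) =
        algebraMap O ↥(fc_chart O ({x⁻¹} : Set F)) π * b := by
      rw [← hb']; ring
    have h3 := mul_left_cancel₀ hp'.ne_zero h2
    rw [Ideal.Quotient.eq_zero_iff_mem, Ideal.mem_span_singleton']
    exact ⟨b'', h3⟩
  · exact absurd hd hπt

/-- **Cfree** -/
theorem ffi_fb_Cfree [IsDomain O] [IsDiscreteValuationRing O] {π : O} (hπ : Irreducible π)
    (hp' : Prime (algebraMap O ↥(fc_chart O ({x⁻¹} : Set F)) π))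
    (hπt : ¬ algebraMap O ↥(fc_chart O ({x⁻¹} : Set F)) π ∣ ffi_gT O x)
    (hfin : Module.Finite O (ffi_gC O x)) : Module.Free O (ffi_gC O x) := by
  haveI := hfin
  haveI : Module.IsTorsionFree O (ffi_gC O x) := by
    refine Module.IsTorsionFree.of_smul_eq_zero fun r c hrc => ?_
    by_cases hr : r = 0
    · exact Or.inl hr
    · right
      obtain ⟨n, u, rfl⟩ := IsDiscreteValuationRing.eq_unit_mul_pow_irreducible hr hπ
      have h1 : π ^ n • c = 0 := by
        have : (u : O) • (π ^ n • c) = 0 := by rw [smul_smul]; exact hrc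
        have h2 : ((u⁻¹ : Oˣ) : O) • ((u : O) • (π ^ n • c)) = ((u⁻¹ : Oˣ) : O) • (0 : ffi_gC O x) :=
          congrArg (fun y => ((u⁻¹ : Oˣ) : O) • y) this
        rw [smul_smul, Units.inv_mul, one_smul, smul_zero] at h2
        exact h2
      clear hrc hr
      induction n with
      | zero => rw [pow_zero, one_smul] at h1; exact h1
      | succ n ih =>
        apply ih
        apply ffi_fb_Ctors O x hp' hπt
        rw [smul_smul, ← pow_succ']
        exact h1
  exact Module.free_of_finite_type_torsion_free'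

/-- **fg**, by induction on `m`: `Λ 0 = O` and `Λ (m+1) / Λ m ↪ C`. -/
theorem ffi_fb_fg [IsNoetherianRing O] (hx0 : x ≠ 0)
    (hzc : ∀ a ∈ ffi_gLam O x 0, ∃ o : O, a = algebraMap O ↥(fc_chart O ({x} : Set F)) o)
    (hfin : Module.Finite O (ffi_gC O x)) (m : ℕ) : (ffi_gLam O x m).FG := by
  haveI := hfin
  induction m with
  | zero =>
    have h0 : ffi_gLam O x 0 = Submodule.span O {(1 : ↥(fc_chart O ({x} : Set F)))} := by
      apply le_antisymm
      · intro a ha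
        obtain ⟨o, rfl⟩ := hzc a ha
        rw [Algebra.algebraMap_eq_smul_one]
        exact Submodule.smul_mem _ _ (Submodule.mem_span_singleton_self _)
      · rw [Submodule.span_singleton_le_iff_mem]
        exact ffi_fb_one_mem O x
    rw [h0]
    exact Submodule.fg_span_singleton _
  | succ m ih =>
    haveI : Module.Finite O ↥(ffi_gLam O x m) := Module.Finite.iff_fg.2 ih
    have hle := ffi_fb_le_succ O x m
    have hker : LinearMap.ker (ffi_gLead O x (m + 1)) =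
        LinearMap.range (Submodule.inclusion hle) := by
      ext a
      rw [LinearMap.mem_ker, ffi_fb_lead_ker O x hx0, LinearMap.mem_range]
      constructor
      · intro h
        exact ⟨⟨a, h⟩, Subtype.ext rfl⟩
      · rintro ⟨b, rfl⟩
        exact b.2
    have h1 : ((⊤ : Submodule O ↥(ffi_gLam O x (m + 1))).map (ffi_gLead O x (m + 1))).FG :=
      IsNoetherian.noetherian _
    have h2 : ((⊤ : Submodule O ↥(ffi_gLam O x (m + 1))) ⊓
        LinearMap.ker (ffi_gLead O x (m + 1))).FG := by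
      rw [top_inf_eq, hker, LinearMap.range_eq_map]
      exact Submodule.FG.map _ Module.Finite.fg_top
    have h3 : (⊤ : Submodule O ↥(ffi_gLam O x (m + 1))).FG :=
      Submodule.fg_of_fg_map_of_fg_inf_ker (ffi_gLead O x (m + 1)) h1 h2
    exact Module.Finite.iff_fg.1 ⟨h3⟩

end Alg

/-! ### the non-degeneracy hypotheses from transcendence -/

section Trans

variable {O : Type u} [CommRing O] {F : Type v} [Field F] [Algebra O F]

/-- the scaling trick: `z` integral over `R`, `s ∈ R`, `s z ∈ R` ⟹ `(s z)^d ∈ s R`. -/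
theorem ffi_fb_scale (R : Subalgebra O F) {z s : F} (hz : IsIntegral R z) (hs : s ∈ R)
    (hsz : s * z ∈ R) : ∃ d : ℕ, ∃ r ∈ R, (s * z) ^ d = s * r := by
  obtain ⟨p, hpm, hpz⟩ := hz
  set d := p.natDegree with hd
  rw [Polynomial.eval₂_eq_sum_range, ← hd, Finset.sum_range_succ] at hpz
  have hlead : p.coeff d = 1 := hpm
  rw [hlead, map_one, one_mul] at hpz
  refine ⟨d, -∑ i ∈ Finset.range d, (p.coeff i : F) * s ^ (d - i - 1) * (s * z) ^ i, ?_, ?_⟩
  · refine neg_mem (sum_mem fun i _ => ?_)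
    exact mul_mem (mul_mem (p.coeff i).2 (pow_mem hs _)) (pow_mem hsz _)
  · have h1 : (s * z) ^ d = s ^ d * z ^ d := mul_pow s z d
    have h2 : z ^ d = -∑ i ∈ Finset.range d, algebraMap (↥R) F (p.coeff i) * z ^ i := by
      rw [eq_neg_iff_add_eq_zero, add_comm]; exact hpz
    rw [h1, h2, mul_neg, mul_neg, Finset.mul_sum, Finset.mul_sum]
    congr 1
    refine Finset.sum_congr rfl fun i hi => ?_
    have hi' : i < d := Finset.mem_range.1 hi
    have h3 : s ^ d = s * s ^ (d - i - 1) * s ^ i := by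
      rw [← pow_succ', ← pow_add]
      congr 1
      omega
    have h4 : algebraMap (↥R) F (p.coeff i) = ((p.coeff i : ↥R) : F) := rfl
    rw [h3, h4, mul_pow]
    ring

variable (O) in
/-- `π ∤ t` in `𝒜'` when `t = x⁻¹` is transcendental over `O` and `π` is not a unit. -/
theorem ffi_fb_not_dvd_t (x : F) (ht : Transcendental O x⁻¹) {π : O} (hπ : ¬ IsUnit π) :
    ¬ algebraMap O ↥(fc_chart O ({x⁻¹} : Set F)) π ∣ ffi_gT O x := by
  rintro ⟨b, hb⟩
  have hbF : x⁻¹ = algebraMap O F π * (b : F) := congrArg Subtype.val hb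
  have htR : x⁻¹ ∈ Algebra.adjoin O ({x⁻¹} : Set F) := Algebra.subset_adjoin rfl
  obtain ⟨d, r, hr, hd⟩ := ffi_fb_scale (Algebra.adjoin O ({x⁻¹} : Set F)) (z := (b : F))
    (s := algebraMap O F π) b.2 (Subalgebra.algebraMap_mem _ _) (by rw [← hbF]; exact htR)
  rw [← hbF] at hd
  rw [Algebra.adjoin_singleton_eq_range_aeval] at hr
  obtain ⟨q, rfl⟩ := hr
  have h0 : Polynomial.aeval x⁻¹ (X ^ d - C π * q) = 0 := by
    rw [map_sub, map_pow, aeval_X, map_mul, aeval_C, hd]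
    exact sub_self _
  have h1 : (X ^ d - C π * q : O[X]) = 0 := by
    by_contra hne
    exact ht ⟨_, hne, h0⟩
  have h2 := congrArg (fun f : O[X] => f.coeff d) h1
  simp only [coeff_sub, coeff_X_pow, if_true, coeff_C_mul, coeff_zero] at h2
  apply hπ
  exact IsUnit.of_mul_eq_one (q.coeff d) (by linear_combination -h2)

variable (O) in
/-- no nonzero constant multiple of `x` lies in `𝒜'` when `x⁻¹` is transcendental over the
reduced ring `O`. -/
theorem ffi_fb_hnc [IsReduced O] (x : F) (hx0 : x ≠ 0) (ht : Transcendental O x⁻¹) (o : O)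
    (ho : algebraMap O F o ≠ 0) : algebraMap O F o * x ∉ fc_chart O ({x⁻¹} : Set F) := by
  intro hmem
  have htR : x⁻¹ ∈ Algebra.adjoin O ({x⁻¹} : Set F) := Algebra.subset_adjoin rfl
  have hsz : x⁻¹ * (algebraMap O F o * x) = algebraMap O F o := by
    rw [mul_comm, mul_assoc, mul_inv_cancel₀ hx0, mul_one]
  obtain ⟨d, r, hr, hd⟩ := ffi_fb_scale (Algebra.adjoin O ({x⁻¹} : Set F))
    (z := algebraMap O F o * x) (s := x⁻¹) hmem htR
    (by rw [hsz]; exact Subalgebra.algebraMap_mem _ _)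
  rw [hsz] at hd
  rw [Algebra.adjoin_singleton_eq_range_aeval] at hr
  obtain ⟨q, rfl⟩ := hr
  have h0 : Polynomial.aeval x⁻¹ (C (o ^ d) - X * q) = 0 := by
    rw [map_sub, aeval_C, map_mul, aeval_X, map_pow, hd]
    exact sub_self _
  have h1 : (C (o ^ d) - X * q : O[X]) = 0 := by
    by_contra hne
    exact ht ⟨_, hne, h0⟩
  have h2 := congrArg (fun f : O[X] => f.coeff 0) h1
  simp only [coeff_sub, coeff_C_zero, coeff_X_mul_zero, sub_zero, coeff_zero] at h2
  have h3 : o = 0 := IsReduced.eq_zero o ⟨d, h2⟩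
  rw [h3, map_zero] at ho
  exact ho rfl

end Trans

end Fermat.Agent.FF
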