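/-
Project FF (S19), cell [INST], leaf [P-FB1] (helper16): `theorem ffi_fb1 : ffi_SeamFB1`.

The elementary filtration fields `ffi_IsFiltA O x π` of the two charts `𝒜 = fc_chart O {x}`,
`𝒜' = fc_chart O {x⁻¹}` over a discrete valuation ring, from `Fermat/Agent/FF/Inst/Pkg/Filtration.lean`
(`ffi_fb_*`) and `fch_H0` (`𝒜 ∩ 𝒜' = O`, `JT3/FCore/H0Const.lean`).
-/
import Mathlib
import Fermat.Agent.FF.Inst.Pkg.Seams
import Fermat.Agent.FF.Inst.Pkg.Filtration
import Fermat.Agent.JT3.FCore.H0Const
import Fermat.Agent.JT3.FCore.FunField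

set_option autoImplicit false
set_option linter.unusedSectionVars false
set_option linter.style.haveILetI false

noncomputable section

namespace Fermat.Agent.FF

open Fermat.Agent.JT3

/-- **[P-FB1]** -/
theorem ffi_fb1 : ffi_SeamFB1 := by
  intro O _ _ _ K _ _ _ F _ _ _ _ π hπ x hx hconst hfin hfin' hp hp'
  have hx0 : x ≠ 0 := by
    rintro rfl
    exact hx (isAlgebraic_zero)
  have hxi : Transcendental K x⁻¹ := fun h => hx (IsAlgebraic.inv_iff.mp h)
  have hxiO : Transcendental O x⁻¹ := fc_ff_transcendental (L := K) hxi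
  have hπu : ¬ IsUnit π := hπ.not_isUnit
  have hπt := ffi_fb_not_dvd_t O x hxiO hπu
  have hconst' : ∀ a : ↥(fc_chart O ({x} : Set F)), (a : F) ∈ fc_chart O ({x⁻¹} : Set F) →
      ∃ o : O, a = algebraMap O ↥(fc_chart O ({x} : Set F)) o := by
    intro a ha
    obtain ⟨o, ho⟩ := fch_H0 x hx hconst (a : F) (fc_mem_chart.1 a.2) (fc_mem_chart.1 ha)
    exact ⟨o, Subtype.ext ho.symm⟩
  have hnc := ffi_fb_hnc O x hx0 hxiO
  have hF := ffi_fb_finOver_of_span (O := O) x hfin
  have hF' := ffi_fb_finOver_of_span (O := O) x⁻¹ hfin'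
  have hCfin := ffi_fb_Cfin O x hF'
  have hinj : Function.Injective (algebraMap O F) := by
    rw [IsScalarTower.algebraMap_eq O K F]
    exact (algebraMap K F).injective.comp (IsFractionRing.injective O K)
  exact
    { ft := ffi_fb_ft x hF
      tf := by
        intro a ha
        have h1 : algebraMap O F π * (a : F) = 0 := by
          have := congrArg Subtype.val ha
          rwa [Subalgebra.coe_smul, Algebra.smul_def] at this
        rcases mul_eq_zero.1 h1 with h | h
        · exact absurd ((map_eq_zero_iff _ hinj).1 h) hπ.ne_zero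
        · exact Subtype.ext h
      mono := ffi_fb_mono O x
      exh := ffi_fb_exh O x hx0
      one_mem := ffi_fb_one_mem O x
      zero_const := ffi_fb_zero_const O x hconst'
      mul_mem := ffi_fb_mul_mem O x
      sat := ffi_fb_sat O x hx0 hp' hπt
      Cfin := hCfin
      Cfree := ffi_fb_Cfree O x hπ hp' hπt hCfin
      lead_ker := ffi_fb_lead_ker O x hx0
      lead_zero := ffi_fb_lead_zero O x hx0 hconst' hnc
      lead_one := ffi_fb_lead_one O x
      lead_mul := ffi_fb_lead_mul O x }

end Fermat.Agent.FF
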