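/-
Project FF (S19), cell [INST], leaf [P-FB2], first half: THE ČECH STATEMENT OF THE TWO-CHART MODEL
(helper16).  Prefix `ffi_cech_`.

`O` a commutative ring, `F ⊇ O` a field, `x ∈ F`, `x ≠ 0`, `𝒜 = fc_chart O {x}`,
`𝒜' = fc_chart O {x⁻¹}`, `B₁₂ = fc_chart O {x, x⁻¹}` (`= 𝒜[1/x] = 𝒜'[x]`), `t = x⁻¹`.

* `ffi_cech_N O x m = 𝒜 + x^m 𝒜'` (an `O`-submodule of `F`);
* `ffi_cech_direct` : if `𝒜' = Σ_e O[t] e` (finitely many `e`), then there is `a0` with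
  `B₁₂ = 𝒜 + x^m 𝒜'` for all `m` with `a0 ≤ m + 1`
  [`x^a0 e ∈ 𝒜` for all `e` (`fc_clear1`); `B₁₂ = 𝒜'[x]` is spanned over `O` by the monomials
  `x^k t^i e`, and `x^u e ∈ x^m 𝒜'` for `u ≤ m`, `x^u e ∈ 𝒜` for `u ≥ a0`];
* `ffi_cech_lead_surj` : hence `lead m : Λ m → C` is onto for `m ≥ max a0 1`.
-/
import Mathlib
import Fermat.Agent.FF.Inst.Pkg.Filtration

set_option autoImplicit false
set_option linter.unusedSectionVars false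
set_option linter.style.haveILetI false

noncomputable section

namespace Fermat.Agent.FF

open Fermat.Agent.JT3 Polynomial

universe u v

section Cech

variable (O : Type u) [CommRing O] {F : Type v} [Field F] [Algebra O F] (x : F)

/-- `𝒜 + x^m 𝒜'` as an `O`-submodule of `F`. -/
def ffi_cech_N (m : ℕ) : Submodule O F where
  carrier := {w | ∃ a ∈ fc_chart O ({x} : Set F), ∃ a' ∈ fc_chart O ({x⁻¹} : Set F),
    w = a + x ^ m * a'}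
  add_mem' := by
    rintro _ _ ⟨a, ha, a', ha', rfl⟩ ⟨b, hb, b', hb', rfl⟩
    exact ⟨a + b, add_mem ha hb, a' + b', add_mem ha' hb', by ring⟩
  zero_mem' := ⟨0, zero_mem _, 0, zero_mem _, by ring⟩
  smul_mem' := by
    rintro c _ ⟨a, ha, a', ha', rfl⟩
    refine ⟨c • a, Subalgebra.smul_mem _ ha c, c • a', Subalgebra.smul_mem _ ha' c, ?_⟩
    rw [smul_add, mul_smul_comm]

theorem ffi_cech_mem_N {m : ℕ} {w : F} : w ∈ ffi_cech_N O x m ↔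
    ∃ a ∈ fc_chart O ({x} : Set F), ∃ a' ∈ fc_chart O ({x⁻¹} : Set F), w = a + x ^ m * a' :=
  Iff.rfl

theorem ffi_cech_chart1_le_N (m : ℕ) {a : F} (ha : a ∈ fc_chart O ({x} : Set F)) :
    a ∈ ffi_cech_N O x m :=
  ⟨a, ha, 0, zero_mem _, by ring⟩

theorem ffi_cech_mul_chart2_le_N (m : ℕ) {a' : F} (ha' : a' ∈ fc_chart O ({x⁻¹} : Set F)) :
    x ^ m * a' ∈ ffi_cech_N O x m :=
  ⟨0, zero_mem _, a', ha', by ring⟩

/-- `x^a t^b = x^c t^d` when `a + d = c + b`. -/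
theorem ffi_cech_pow_inv_pow (hx0 : x ≠ 0) {a b c d : ℕ} (h : a + d = c + b) :
    x ^ a * x⁻¹ ^ b = x ^ c * x⁻¹ ^ d := by
  have e : ∀ n : ℕ, x ^ n * x⁻¹ ^ n = 1 := fun n => by
    rw [← mul_pow, mul_inv_cancel₀ hx0, one_pow]
  calc x ^ a * x⁻¹ ^ b = (x ^ a * x ^ d) * (x⁻¹ ^ b * x⁻¹ ^ d) * 1 := by
        rw [mul_one]
        calc x ^ a * x⁻¹ ^ b = x ^ a * x⁻¹ ^ b * (x ^ d * x⁻¹ ^ d) := by rw [e d, mul_one]
          _ = _ := by ring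
    _ = (x ^ c * x ^ b) * (x⁻¹ ^ b * x⁻¹ ^ d) * 1 := by
        rw [← pow_add x a d, h, pow_add x c b]
    _ = x ^ c * x⁻¹ ^ d * (x ^ b * x⁻¹ ^ b) := by ring
    _ = x ^ c * x⁻¹ ^ d := by rw [e b, mul_one]

/-- the monomials: `x^k t^i e ∈ 𝒜 + x^m 𝒜'` for `e ∈ 𝒜'` with `x^a0 e ∈ 𝒜`, `a0 ≤ m + 1`. -/
theorem ffi_cech_monomial (hx0 : x ≠ 0) (m : ℕ) {e : F} (he : e ∈ fc_chart O ({x⁻¹} : Set F))
    {a0 : ℕ} (ha0 : x ^ a0 * e ∈ fc_chart O ({x} : Set F)) (hm : a0 ≤ m + 1) (k i : ℕ) :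
    x ^ k * (x⁻¹ ^ i * e) ∈ ffi_cech_N O x m := by
  rcases Nat.lt_or_ge (i + m) k with h | h
  · -- `k - i ≥ m + 1 ≥ a0`
    obtain ⟨j, hj⟩ := Nat.exists_eq_add_of_le (show i + a0 ≤ k by omega)
    have h1 : x ^ k * x⁻¹ ^ i = x ^ (j + a0) * x⁻¹ ^ 0 :=
      ffi_cech_pow_inv_pow x hx0 (by omega)
    have h2 : x ^ k * (x⁻¹ ^ i * e) = x ^ j * (x ^ a0 * e) := by
      rw [← mul_assoc, h1, pow_zero, mul_one, pow_add, mul_assoc]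
    rw [h2]
    exact ffi_cech_chart1_le_N O x m (mul_mem (pow_mem (fc_x_mem_chart x) _) ha0)
  · -- `k - i ≤ m`
    obtain ⟨j, hj⟩ := Nat.exists_eq_add_of_le h
    have h1 : x ^ k * x⁻¹ ^ i = x ^ m * x⁻¹ ^ j :=
      ffi_cech_pow_inv_pow x hx0 (by omega)
    have h2 : x ^ k * (x⁻¹ ^ i * e) = x ^ m * (x⁻¹ ^ j * e) := by
      rw [← mul_assoc, h1, mul_assoc]
    rw [h2]
    exact ffi_cech_mul_chart2_le_N O x m (mul_mem (pow_mem (ffi_fb_t_mem O x) _) he)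

/-- `x^k c e ∈ 𝒜 + x^m 𝒜'` for `c ∈ O[t]`. -/
theorem ffi_cech_poly (hx0 : x ≠ 0) (m : ℕ) {e : F} (he : e ∈ fc_chart O ({x⁻¹} : Set F))
    {a0 : ℕ} (ha0 : x ^ a0 * e ∈ fc_chart O ({x} : Set F)) (hm : a0 ≤ m + 1) (k : ℕ)
    {c : F} (hc : c ∈ Algebra.adjoin O ({x⁻¹} : Set F)) :
    x ^ k * (c * e) ∈ ffi_cech_N O x m := by
  rw [Algebra.adjoin_singleton_eq_range_aeval] at hc
  obtain ⟨q, rfl⟩ := hc
  change x ^ k * (Polynomial.aeval x⁻¹ q * e) ∈ ffi_cech_N O x m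
  rw [Polynomial.aeval_eq_sum_range, Finset.sum_mul, Finset.mul_sum]
  refine (ffi_cech_N O x m).sum_mem fun i _ => ?_
  rw [smul_mul_assoc, mul_smul_comm]
  exact (ffi_cech_N O x m).smul_mem _ (ffi_cech_monomial O x hx0 m he ha0 hm k i)

/-- **the Čech statement**: `B₁₂ = 𝒜 + x^m 𝒜'` for `a0 ≤ m + 1`. -/
theorem ffi_cech_direct (hx0 : x ≠ 0)
    (hfin' : ffi_fb_FinOver (Algebra.adjoin O ({x⁻¹} : Set F)) (fc_chart O ({x⁻¹} : Set F))) :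
    ∃ a0 : ℕ, ∀ m : ℕ, a0 ≤ m + 1 → ∀ f ∈ fc_chart O ({x, x⁻¹} : Set F),
      ∃ a ∈ fc_chart O ({x} : Set F), ∃ b ∈ fc_chart O ({x⁻¹} : Set F), f = a + x ^ m * b := by
  classical
  obtain ⟨s, hs, hspan⟩ := hfin'
  have hex : ∀ e : F, ∃ k : ℕ, e ∈ s → x ^ k * e ∈ fc_chart O ({x} : Set F) := by
    intro e
    by_cases he : e ∈ s
    · obtain ⟨k, hk⟩ := fc_clear1 (A0 := O) hx0 (fc_chart2_le x (hs e he))
      exact ⟨k, fun _ => hk⟩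
    · exact ⟨0, fun h => absurd h he⟩
  choose μ hμ using hex
  refine ⟨s.sup μ, fun m hm f hf => ?_⟩
  have hμ' : ∀ e ∈ s, x ^ (s.sup μ) * e ∈ fc_chart O ({x} : Set F) := by
    intro e he
    obtain ⟨j, hj⟩ := Nat.exists_eq_add_of_le (Finset.le_sup (f := μ) he)
    rw [hj, add_comm, pow_add, mul_assoc]
    exact mul_mem (pow_mem (fc_x_mem_chart x) _) (hμ e he)
  obtain ⟨k, hk⟩ := fc_clear2 (A0 := O) hx0 hf
  obtain ⟨c, hc, hz⟩ := hspan _ hk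
  have hf' : f = x ^ k * (x⁻¹ ^ k * f) := by
    rw [← mul_assoc, ← mul_pow, mul_inv_cancel₀ hx0, one_pow, one_mul]
  have hmem : f ∈ ffi_cech_N O x m := by
    rw [hf', hz, Finset.mul_sum]
    exact (ffi_cech_N O x m).sum_mem fun e he =>
      ffi_cech_poly O x hx0 m (hs e he) (hμ' e he) hm k (hc e)
  exact hmem

/-- **lead_surj**: `lead m : Λ m → C` is onto as soon as `B₁₂ = 𝒜 + x^(m-1) 𝒜'`. -/
theorem ffi_cech_lead_surj (hx0 : x ≠ 0) (m : ℕ)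
    (hcech : ∀ f ∈ fc_chart O ({x, x⁻¹} : Set F),
      ∃ a ∈ fc_chart O ({x} : Set F), ∃ b ∈ fc_chart O ({x⁻¹} : Set F), f = a + x ^ m * b) :
    Function.Surjective (ffi_gLead O x (m + 1)) := by
  intro c
  obtain ⟨b, rfl⟩ := Ideal.Quotient.mk_surjective c
  have hb12 : x ^ (m + 1) * (b : F) ∈ fc_chart O ({x, x⁻¹} : Set F) :=
    mul_mem (pow_mem (fc_chart1_le x (fc_x_mem_chart x)) _) (fc_chart2_le x b.2)
  obtain ⟨a, ha, b'', hb'', hab⟩ := hcech _ hb12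
  have e1 : x ^ (m + 1) * x⁻¹ ^ (m + 1) = 1 := by
    rw [← mul_pow, mul_inv_cancel₀ hx0, one_pow]
  have e2 : x ^ m * x⁻¹ ^ (m + 1) = x⁻¹ := by
    have := ffi_cech_pow_inv_pow x hx0 (a := m) (b := m + 1) (c := 0) (d := 1) (by omega)
    rw [this, pow_zero, one_mul, pow_one]
  -- `a t^(m+1) = b - t b''`
  have hat : a * x⁻¹ ^ (m + 1) = (b : F) - x⁻¹ * b'' := by
    have h1 : a = x ^ (m + 1) * (b : F) - x ^ m * b'' := by rw [hab]; ring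
    rw [h1, sub_mul]
    congr 1
    · rw [mul_right_comm, e1, one_mul]
    · rw [mul_right_comm, e2]
  have haΛ : (⟨a, ha⟩ : ↥(fc_chart O ({x} : Set F))) ∈ ffi_gLam O x (m + 1) := by
    rw [ffi_mem_gLam]
    show a * x⁻¹ ^ (m + 1) ∈ _
    rw [hat]
    exact sub_mem b.2 (mul_mem (ffi_fb_t_mem O x) hb'')
  refine ⟨⟨⟨a, ha⟩, haΛ⟩, ?_⟩
  rw [ffi_gLead_apply, Ideal.Quotient.eq, Ideal.mem_span_singleton']
  refine ⟨-⟨b'', hb''⟩, Subtype.ext ?_⟩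
  show -b'' * x⁻¹ = a * x⁻¹ ^ (m + 1) - (b : F)
  rw [hat]
  ring

end Cech

end Fermat.Agent.FF
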