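/-
Project FF (S19), cell [INST], leaf [P-FB2] (helper16): `theorem ffi_fb2 : ffi_SeamFB2`.

From `ffi_IsFiltA O x π` and the finiteness of `𝒜' = fc_chart O {x⁻¹}` over `O[x⁻¹]`:
* the Čech statement `B₁₂ = 𝒜 + x^m 𝒜'` for `m0 ≤ m + 1` (`ffi_cech_direct`, `m0 = max a0 1`);
* `lead_surj` for `m ≥ m0` (`ffi_cech_lead_surj`);
* `fg` (`ffi_fb_fg`);
* `rank`: rank–nullity for `lead (m+1) : Λ (m+1) → C` with kernel `Λ m`:
  `rank Λ (m+1) ≤ rank Λ m + n` always, with equality for `m0 ≤ m + 1`, `rank Λ 0 ≤ 1`;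
  `g := m0 n + 1 - rank Λ m0`.
-/
import Mathlib
import Fermat.Agent.FF.Inst.Pkg.Seams
import Fermat.Agent.FF.Inst.Pkg.Cech

set_option autoImplicit false
set_option linter.unusedSectionVars false
set_option linter.style.haveILetI false

noncomputable section

namespace Fermat.Agent.FF

open Fermat.Agent.JT3

universe u v

section Rank

variable (O : Type u) [CommRing O] [IsDomain O] {F : Type v} [Field F] [Algebra O F] (x : F)

/-- rank–nullity for `lead (m+1) : Λ (m+1) → C`, whose kernel is `Λ m`. -/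
theorem ffi_fb_rank_succ (hx0 : x ≠ 0) (m : ℕ) (hfg : (ffi_gLam O x (m + 1)).FG) :
    Module.finrank O ↥(ffi_gLam O x (m + 1)) =
      Module.finrank O ↥(LinearMap.range (ffi_gLead O x (m + 1))) +
        Module.finrank O ↥(ffi_gLam O x m) := by
  haveI : Module.Finite O ↥(ffi_gLam O x (m + 1)) := Module.Finite.iff_fg.2 hfg
  have hle := ffi_fb_le_succ O x m
  have hker : LinearMap.ker (ffi_gLead O x (m + 1)) =
      LinearMap.range (Submodule.inclusion hle) := by
    ext a
    rw [LinearMap.mem_ker, ffi_fb_lead_ker O x hx0, LinearMap.mem_range]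
    constructor
    · intro h
      exact ⟨⟨a, h⟩, Subtype.ext rfl⟩
    · rintro ⟨b, rfl⟩
      exact b.2
  have h1 := (LinearMap.ker (ffi_gLead O x (m + 1))).finrank_quotient_add_finrank
  rw [LinearEquiv.finrank_eq (ffi_gLead O x (m + 1)).quotKerEquivRange, hker,
    LinearMap.finrank_range_of_inj (Submodule.inclusion_injective hle)] at h1
  exact h1.symm

/-- `rank Λ 0 ≤ 1` -/
theorem ffi_fb_rank_zero
    (hzc : ∀ a ∈ ffi_gLam O x 0, ∃ o : O, a = algebraMap O ↥(fc_chart O ({x} : Set F)) o) :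
    Module.finrank O ↥(ffi_gLam O x 0) ≤ 1 := by
  refine finrank_le_one (⟨1, ffi_fb_one_mem O x⟩ : ↥(ffi_gLam O x 0)) fun w => ?_
  obtain ⟨o, ho⟩ := hzc w w.2
  refine ⟨o, Subtype.ext ?_⟩
  show o • (1 : ↥(fc_chart O ({x} : Set F))) = (w : ↥(fc_chart O ({x} : Set F)))
  rw [ho, Algebra.algebraMap_eq_smul_one]

end Rank

/-- **[P-FB2]** -/
theorem ffi_fb2 : ffi_SeamFB2 := by
  intro O _ _ _ F _ _ π hπ x hx0 hfin' hA
  have hF' := ffi_fb_finOver_of_span (O := O) x⁻¹ hfin'
  obtain ⟨a0, hcech⟩ := ffi_cech_direct O x hx0 hF'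
  haveI := hA.Cfin
  have hfg : ∀ m, (ffi_gLam O x m).FG := ffi_fb_fg O x hx0 hA.zero_const hA.Cfin
  have hsurj : ∀ m, max a0 1 ≤ m → Function.Surjective (ffi_gLead O x m) := by
    intro m hm
    obtain ⟨k, rfl⟩ : ∃ k, m = k + 1 := ⟨m - 1, by omega⟩
    exact ffi_cech_lead_surj O x hx0 k (hcech k (by omega))
  -- the rank recursion
  have hstep : ∀ m, Module.finrank O ↥(ffi_gLam O x (m + 1)) ≤
      Module.finrank O (ffi_gC O x) + Module.finrank O ↥(ffi_gLam O x m) := by
    intro m
    rw [ffi_fb_rank_succ O x hx0 m (hfg (m + 1))]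
    exact Nat.add_le_add_right (Submodule.finrank_le _) _
  have hstep' : ∀ m, max a0 1 ≤ m + 1 → Module.finrank O ↥(ffi_gLam O x (m + 1)) =
      Module.finrank O (ffi_gC O x) + Module.finrank O ↥(ffi_gLam O x m) := by
    intro m hm
    rw [ffi_fb_rank_succ O x hx0 m (hfg (m + 1)),
      LinearMap.range_eq_top.2 (hsurj (m + 1) hm), finrank_top]
  have hU : ∀ m, Module.finrank O ↥(ffi_gLam O x m) ≤
      m * Module.finrank O (ffi_gC O x) + 1 := by
    intro m
    induction m with
    | zero => rw [Nat.zero_mul, Nat.zero_add]; exact ffi_fb_rank_zero O x hA.zero_const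
    | succ m ih =>
      refine (hstep m).trans ?_
      rw [Nat.succ_mul]
      omega
  refine ⟨max a0 1 * Module.finrank O (ffi_gC O x) + 1 -
      Module.finrank O ↥(ffi_gLam O x (max a0 1)), Module.finrank O (ffi_gC O x), max a0 1,
    ?_, fun m hm f hf => hcech m (by omega) f hf⟩
  exact
    { ft := hA.ft
      tf := hA.tf
      mono := hA.mono
      exh := hA.exh
      one_mem := hA.one_mem
      zero_const := hA.zero_const
      mul_mem := hA.mul_mem
      fg := hfg
      sat := hA.sat
      Cfin := hA.Cfin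
      Cfree := hA.Cfree
      Crank := rfl
      lead_ker := hA.lead_ker
      lead_zero := hA.lead_zero
      lead_one := hA.lead_one
      lead_mul := hA.lead_mul
      lead_surj := hsurj
      rank := by
        intro m hm
        induction m, hm using Nat.le_induction with
        | base =>
          have := hU (max a0 1)
          omega
        | succ m hm ih =>
          rw [hstep' m (by omega), Nat.succ_mul]
          omega }

end Fermat.Agent.FF
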