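/-
Project FF (S19), cell [INST], sub-cell [I-PKG], leaf **[P-GR]** (helper5).  Prefix `ffi_gr_`.

`theorem ffi_gr : ffi_SeamGR`: a filtration `ffi_IsFilt` over a discrete valuation ring and a
pre-dictionary `ffi_IsPreDict` of a fibre `k ⊗ 𝒜` (a Dedekind domain, `k` algebraically closed)
give

* `deg (xk)_∞ = [Fk : k(xk)] = n`                                   (`ffi_gr_degree`),
* Riemann's theorem on `Fk / k` with the genus `g` of the filtration (`ffi_gr_riemann`),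
* hence the dictionary `ffi_IsDict`, and Riemann's theorem in ideal form.

Proof: `k ⊗ Λ m ≃ L(m (xk)_∞)` for `m ≥ m1` (`lam_le`, `lam_ge`, `incl_inj`), `Λ m` is finite free
over `O` of rank `m n + 1 - g` for `m ≥ m0`, so `l(m (xk)_∞) = m n + 1 - g` for all large `m`;
compare with `rt_riemann` at `m` and `m + 1`.
-/
import Mathlib
import Fermat.Agent.FF.Inst.Pkg.Seams
import Fermat.Agent.FF.Inst.ChartFrac
import Fermat.Agent.JT3.Riemann.Main

set_option autoImplicit false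
set_option linter.style.haveILetI false

noncomputable section

namespace Fermat.Agent.FF

open AlgebraicCurve IntermediateField Fermat.Agent.S24 Fermat.Agent.JT3
open scoped TensorProduct

/-! ### torsion-freeness over a discrete valuation ring -/

/-- `π`-torsion-free ⟹ torsion-free, over a discrete valuation ring with uniformiser `π`. -/
theorem ffi_gr_torsionFree {O : Type} [CommRing O] [IsDomain O] [IsDiscreteValuationRing O]
    {M : Type} [AddCommGroup M] [Module O M] {π : O} (hπ : Irreducible π)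
    (tf : ∀ a : M, π • a = 0 → a = 0) : Module.IsTorsionFree O M := by
  have hpow : ∀ (e : ℕ) (a : M), π ^ e • a = 0 → a = 0 := by
    intro e
    induction e with
    | zero => intro a h; simpa using h
    | succ e ih =>
      intro a h
      rw [pow_succ, mul_smul] at h
      exact tf a (ih _ h)
  refine Module.IsTorsionFree.of_smul_eq_zero fun r a h => ?_
  by_cases hr : r = 0
  · exact Or.inl hr
  · right
    obtain ⟨e, u, rfl⟩ := IsDiscreteValuationRing.eq_unit_mul_pow_irreducible hr hπ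
    rw [mul_smul] at h
    exact hpow e a ((u.isUnit.smul_eq_zero).mp h)

/-! ### the core -/

section Core

variable {O : Type} [CommRing O] [IsDomain O] [IsDiscreteValuationRing O]
  {𝒜 : Type} [CommRing 𝒜] [Algebra O 𝒜] {C : Type} [CommRing C] [Algebra O C] {π : O}
  {Λ : ℕ → Submodule O 𝒜} {lead : ∀ m, ↥(Λ m) →ₗ[O] C} {g n m0 : ℕ}
  {k : Type} [Field k] [IsAlgClosed k] [Algebra O k] {Fk : Type} [Field Fk] [Algebra k Fk]
  {xk : Fk} {ι : k ⊗[O] 𝒜 →ₐ[k] Fk} {m1 : ℕ}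

/-- the three outputs of [P-GR] at once. -/
theorem ffi_gr_core (hπ : Irreducible π) (hF : ffi_IsFilt O 𝒜 C π Λ lead g n m0)
    (hded : IsDedekindDomain (k ⊗[O] 𝒜)) (hpre : ffi_IsPreDict O 𝒜 C k Λ lead Fk xk ι m1) :
    Module.finrank k⟮xk⟯ Fk = n ∧
    ∃ c : ℤ, (∀ D : Divisor k Fk, c ≤ Divisor.degree D →
        (Module.finrank k ↥(riemannRochSpace D) : ℤ) = Divisor.degree D + 1 - g) ∧
      ∀ (I : Ideal (k ⊗[O] 𝒜)) (m : ℕ), Module.Finite k ((k ⊗[O] 𝒜) ⧸ I) →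
        m1 ≤ m → Module.finrank k ((k ⊗[O] 𝒜) ⧸ I) + c.toNat ≤ m * n →
        Function.Surjective fun u : k ⊗[O] ↥(Λ m) =>
          Ideal.Quotient.mk I (ff_incl O 𝒜 k Λ m u) := by
  classical
  -- the chart structure on `B = k ⊗ 𝒜`
  letI algB : Algebra (k ⊗[O] 𝒜) Fk := ι.toRingHom.toAlgebra
  haveI : IsScalarTower k (k ⊗[O] 𝒜) Fk :=
    IsScalarTower.of_algebraMap_eq fun c => (ι.commutes c).symm
  have hx := hpre.sep
  have hB : ffd_IsChart k (k ⊗[O] 𝒜) xk := by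
    intro f
    rw [← hpre.chart f]
    constructor
    · rintro ⟨b, rfl⟩; exact ⟨b, rfl⟩
    · rintro ⟨b, rfl⟩; exact ⟨b, rfl⟩
  haveI := hded
  haveI hfr : IsFractionRing (k ⊗[O] 𝒜) Fk := ffi_cf_isFractionRing hx _ hpre.inj hB
  -- Step 1: `k ⊗ Λ m = Λ_m`
  have hle : ∀ (m : ℕ) (u : k ⊗[O] ↥(Λ m)),
      ff_incl O 𝒜 k Λ m u ∈ ffd_Lam hx (k ⊗[O] 𝒜) (m : ℤ) := by
    intro m u
    by_cases hb : ff_incl O 𝒜 k Λ m u = 0
    · rw [hb]; exact zero_mem _
    rw [ffd_mem_Lam_iff hx _ hb]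
    intro v
    by_cases hv : xk ∈ v.toValuationSubring
    · rw [(ffd_Tinf_eq_zero_iff hx v).mpr hv, mul_zero, neg_zero]
      have hne : algebraMap (k ⊗[O] 𝒜) Fk (ff_incl O 𝒜 k Λ m u) ≠ 0 := ffd_map_ne_zero hb
      rw [← hw_mem_iff_ord_nonneg v hne]
      exact (hB _).mp ⟨_, rfl⟩ v hv
    · rw [ffd_Tinf_eq_neg_ord hx hv, mul_neg, neg_neg]
      exact hpre.lam_le m u v hv
  have hge : ∀ m : ℕ, m1 ≤ m → ∀ b ∈ ffd_Lam hx (k ⊗[O] 𝒜) (m : ℤ),
      ∃ u : k ⊗[O] ↥(Λ m), ff_incl O 𝒜 k Λ m u = b := by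
    intro m hm b hb
    by_cases hb0 : b = 0
    · exact ⟨0, by rw [map_zero, hb0]⟩
    refine hpre.lam_ge m hm b fun v hv => ?_
    have := (ffd_mem_Lam_iff hx _ hb0).mp hb v
    rw [ffd_Tinf_eq_neg_ord hx hv, mul_neg, neg_neg] at this
    exact this
  -- Step 2: `Λ m` is finite free over `O`
  haveI htf : Module.IsTorsionFree O 𝒜 := ffi_gr_torsionFree hπ hF.tf
  have hfree : ∀ m, Module.Free O ↥(Λ m) := fun m => by
    haveI : Module.Finite O ↥(Λ m) := Module.Finite.iff_fg.mpr (hF.fg m)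
    infer_instance
  -- Step 3: `l(m T∞) + g = m n + 1` for large `m`
  have hrank : ∀ m : ℕ, m0 ≤ m → m1 ≤ m →
      (Module.finrank k ↥(riemannRochSpace ((m : ℤ) • ffd_Tinf hx)) : ℤ) + g = m * n + 1 := by
    intro m hm0 hm1
    rw [← ffd_finrank_Lam hx hB (m : ℤ)]
    have e : (k ⊗[O] ↥(Λ m)) ≃ₗ[k] ↥(ffd_Lam hx (k ⊗[O] 𝒜) (m : ℤ)) :=
      LinearEquiv.ofBijective ((ff_incl O 𝒜 k Λ m).codRestrict _ (hle m))
        ⟨fun a b h => hpre.incl_inj m (congrArg Subtype.val h), fun b => by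
          obtain ⟨u, hu⟩ := hge m hm1 b b.2
          exact ⟨u, Subtype.ext hu⟩⟩
    rw [← e.finrank_eq]
    haveI := hfree m
    rw [Module.finrank_baseChange]
    exact_mod_cast hF.rank m hm0
  -- Step 4: compare with Riemann's theorem
  obtain ⟨g', c, hR⟩ := rt_riemann hx
  have hdpos : 0 < Module.finrank k⟮xk⟯ Fk := by
    haveI := hx.2.1
    exact Module.finrank_pos
  have hdeg : ∀ m : ℕ, Divisor.degree ((m : ℤ) • ffd_Tinf hx) =
      (m : ℤ) * (Module.finrank k⟮xk⟯ Fk : ℤ) := by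
    intro m
    rw [map_zsmul, ffd_degree_Tinf, smul_eq_mul]
  have key : ∀ m : ℕ, max (max m0 m1) c.toNat ≤ m →
      (m : ℤ) * (Module.finrank k⟮xk⟯ Fk : ℤ) + 1 - g' + g = m * n + 1 := by
    intro m hm
    have hm0 : m0 ≤ m := le_trans (le_trans (le_max_left _ _) (le_max_left _ _)) hm
    have hm1 : m1 ≤ m := le_trans (le_trans (le_max_right _ _) (le_max_left _ _)) hm
    have hmc : c.toNat ≤ m := le_trans (le_max_right _ _) hm
    have hc : c ≤ (m : ℤ) * (Module.finrank k⟮xk⟯ Fk : ℤ) := by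
      have h1 : c ≤ (c.toNat : ℤ) := Int.self_le_toNat c
      have h2 : (c.toNat : ℤ) ≤ (m : ℤ) := by exact_mod_cast hmc
      have h3 : (m : ℤ) ≤ (m : ℤ) * (Module.finrank k⟮xk⟯ Fk : ℤ) :=
        le_mul_of_one_le_right (Nat.cast_nonneg m) (by exact_mod_cast hdpos)
      linarith
    have h1 := (hR ((m : ℤ) • ffd_Tinf hx)).2 (by rw [hdeg]; exact hc)
    have h2 := hrank m hm0 hm1
    rw [h1, hdeg] at h2
    exact h2
  have k1 := key _ le_rfl
  have k2 := key (max (max m0 m1) c.toNat + 1) (Nat.le_succ _)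
  have hdn : (Module.finrank k⟮xk⟯ Fk : ℤ) = n := by
    push_cast at k1 k2
    nlinarith
  have hgg : (g' : ℤ) = g := by
    rw [hdn] at k1
    linarith
  have hR' : ∀ D : Divisor k Fk, c ≤ Divisor.degree D →
      (Module.finrank k ↥(riemannRochSpace D) : ℤ) = Divisor.degree D + 1 - g := by
    intro D hD
    rw [(hR D).2 hD, hgg]
  refine ⟨by exact_mod_cast hdn, c, hR', ?_⟩
  -- Step 6: the ideal form
  intro I m hfin hm1 hdim q
  obtain ⟨b, rfl⟩ := Ideal.Quotient.mk_surjective q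
  haveI := hfin
  have hI : I ≠ ⊥ := ffd_ne_bot_of_finite hx hB I
  have hm : c + (Module.finrank k ((k ⊗[O] 𝒜) ⧸ I) : ℤ) ≤
      (m : ℤ) * (Module.finrank k⟮xk⟯ Fk : ℤ) := by
    rw [hdn]
    have h1 : c ≤ (c.toNat : ℤ) := Int.self_le_toNat c
    have h2 : ((Module.finrank k ((k ⊗[O] 𝒜) ⧸ I) + c.toNat : ℕ) : ℤ) ≤ ((m * n : ℕ) : ℤ) := by
      exact_mod_cast hdim
    push_cast at h2
    linarith
  obtain ⟨a, ha, hba⟩ := ffd_Lam_add_ideal' hx hB g c hR' I hI (m : ℤ) hm b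
  obtain ⟨u, hu⟩ := hge m hm1 a ha
  refine ⟨u, ?_⟩
  show Ideal.Quotient.mk I (ff_incl O 𝒜 k Λ m u) = Ideal.Quotient.mk I b
  rw [hu]
  exact (Ideal.Quotient.eq.mpr hba).symm

/-- `deg (xk)_∞ = [Fk : k(xk)] = n`. -/
theorem ffi_gr_degree (hπ : Irreducible π) (hF : ffi_IsFilt O 𝒜 C π Λ lead g n m0)
    (hded : IsDedekindDomain (k ⊗[O] 𝒜)) (hpre : ffi_IsPreDict O 𝒜 C k Λ lead Fk xk ι m1) :
    Module.finrank k⟮xk⟯ Fk = n :=
  (ffi_gr_core hπ hF hded hpre).1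

/-- Riemann's theorem on the fibre, with the genus of the filtration. -/
theorem ffi_gr_riemann (hπ : Irreducible π) (hF : ffi_IsFilt O 𝒜 C π Λ lead g n m0)
    (hded : IsDedekindDomain (k ⊗[O] 𝒜)) (hpre : ffi_IsPreDict O 𝒜 C k Λ lead Fk xk ι m1) :
    ∃ c : ℤ, ∀ D : Divisor k Fk, c ≤ Divisor.degree D →
      (Module.finrank k ↥(riemannRochSpace D) : ℤ) = Divisor.degree D + 1 - g := by
  obtain ⟨-, c, hc, -⟩ := ffi_gr_core hπ hF hded hpre
  exact ⟨c, hc⟩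

end Core

/-- **[P-GR]**. -/
theorem ffi_gr : ffi_SeamGR := by
  intro O _ _ _ 𝒜 _ _ C _ _ π Λ lead g n m0 hπ hF k _ _ _ Fk _ _ xk ι m1 hded hpre
  obtain ⟨-, c, hc, hI⟩ := ffi_gr_core hπ hF hded hpre
  exact ⟨⟨hpre.sep, hpre.inj, hpre.chart, hpre.lam_le, hpre.lam_ge, hpre.lead_iff, ⟨c, hc⟩⟩,
    c.toNat, hI⟩

end Fermat.Agent.FF
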