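/-
Project FF (S19), cell [INST], sub-cell [I-PKG], leaf **[P-GN]** (helper1): GEOMETRIC NORMALITY
(abstract, Mathlib only) — `theorem ffi_gn : ffi_SeamGN`.

`K` of characteristic zero, `Kb / K` an algebraic closure, `F / K` a field, `FK / Kb` a field spanned
over `Kb` by the image of `φ : F → FK`, every `σ ∈ Gal(Kb / K)` extends to a ring automorphism of `FK`
fixing `φ F` pointwise.  Then `f ∈ FK` integral over `Kb[φ x]` is a `Kb`-combination of `φ b`,
`b ∈ F` integral over `K[x]`.

* `ffi_gn_aut`     : a ring automorphism `τ` of `FK` with `τ (Kb) ⊆ Kb`, `τ y = y` preserves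
                     integrality over `Kb[y]`;
* `ffi_gn_descent` : `φ g` integral over `Kb[φ x]` ⟹ `g` integral over `K[x]`;
* `ffi_gn_lift`    : an embedding `M → Kb` of an intermediate field extends to an automorphism of `Kb`;
* `ffi_gn_trace`   : the trace-dual inversion `φ g_j = ∑_σ σ(b_j^*) τ_σ f`;
* **`ffi_gn`**.
Prefix `ffi_gn_`.
-/
import Mathlib
import Fermat.Agent.FF.Inst.Pkg.Seams

set_option autoImplicit false
set_option linter.style.haveILetI false
set_option linter.unusedSectionVars false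

noncomputable section

namespace Fermat.Agent.FF

open Polynomial

section Aut

variable {Kb FK : Type*} [Field Kb] [Field FK] [Algebra Kb FK]

/-- a ring automorphism of `FK` preserving `Kb` and fixing `y` preserves `Kb[y]` -/
theorem ffi_gn_aut_mem (τ : FK ≃+* FK) (s : Kb → Kb)
    (hτ : ∀ c : Kb, τ (algebraMap Kb FK c) = algebraMap Kb FK (s c)) (y : FK) (hy : τ y = y)
    {a : FK} (ha : a ∈ Algebra.adjoin Kb ({y} : Set FK)) :
    τ a ∈ Algebra.adjoin Kb ({y} : Set FK) := by
  induction ha using Algebra.adjoin_induction with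
  | mem z hz =>
    rw [Set.mem_singleton_iff.1 hz, hy]
    exact Algebra.subset_adjoin (Set.mem_singleton y)
  | algebraMap c =>
    rw [hτ]
    exact Subalgebra.algebraMap_mem _ _
  | add a b _ _ h1 h2 =>
    rw [map_add]
    exact add_mem h1 h2
  | mul a b _ _ h1 h2 =>
    rw [map_mul]
    exact mul_mem h1 h2

/-- a ring automorphism of `FK` preserving `Kb` and fixing `y` preserves integrality over `Kb[y]` -/
theorem ffi_gn_aut (τ : FK ≃+* FK) (s : Kb → Kb)
    (hτ : ∀ c : Kb, τ (algebraMap Kb FK c) = algebraMap Kb FK (s c)) (y : FK) (hy : τ y = y)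
    {f : FK} (hf : IsIntegral ↥(Algebra.adjoin Kb ({y} : Set FK)) f) :
    IsIntegral ↥(Algebra.adjoin Kb ({y} : Set FK)) (τ f) := by
  let ρ : ↥(Algebra.adjoin Kb ({y} : Set FK)) →+* ↥(Algebra.adjoin Kb ({y} : Set FK)) :=
    { toFun := fun a => ⟨τ (a : FK), ffi_gn_aut_mem τ s hτ y hy a.2⟩
      map_one' := Subtype.ext (map_one τ)
      map_mul' := fun a b => Subtype.ext (map_mul τ _ _)
      map_zero' := Subtype.ext (map_zero τ)
      map_add' := fun a b => Subtype.ext (map_add τ _ _) }
  exact IsIntegral.map_of_comp_eq ρ (τ : FK →+* FK) (RingHom.ext fun a => rfl) hf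

end Aut

section Descent

variable {K Kb F FK : Type*} [Field K] [Field Kb] [Algebra K Kb] [Algebra.IsAlgebraic K Kb]
  [Field F] [Algebra K F] [Field FK] [Algebra Kb FK] (φ : F →+* FK)
  (hφ : ∀ c : K, φ (algebraMap K F c) = algebraMap Kb FK (algebraMap K Kb c))

include hφ in
theorem ffi_gn_map_mem (x : F) {r : F} (hr : r ∈ Algebra.adjoin K ({x} : Set F)) :
    φ r ∈ Algebra.adjoin Kb ({φ x} : Set FK) := by
  induction hr using Algebra.adjoin_induction with
  | mem z hz =>
    rw [Set.mem_singleton_iff.1 hz]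
    exact Algebra.subset_adjoin (Set.mem_singleton _)
  | algebraMap c =>
    rw [hφ]
    exact Subalgebra.algebraMap_mem _ _
  | add a b _ _ h1 h2 =>
    rw [map_add]
    exact add_mem h1 h2
  | mul a b _ _ h1 h2 =>
    rw [map_mul]
    exact mul_mem h1 h2

include hφ in
/-- `φ g` integral over `Kb[φ x]` ⟹ `g` integral over `K[x]` -/
theorem ffi_gn_descent (x g : F)
    (hg : IsIntegral ↥(Algebra.adjoin Kb ({φ x} : Set FK)) (φ g)) :
    IsIntegral ↥(Algebra.adjoin K ({x} : Set F)) g := by
  let R₁ : Subalgebra K F := Algebra.adjoin K ({x} : Set F)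
  let A : Subalgebra Kb FK := Algebra.adjoin Kb ({φ x} : Set FK)
  let ψ : ↥R₁ →+* ↥A :=
    { toFun := fun r => ⟨φ (r : F), ffi_gn_map_mem φ hφ x r.2⟩
      map_one' := Subtype.ext (map_one φ)
      map_mul' := fun a b => Subtype.ext (map_mul φ _ _)
      map_zero' := Subtype.ext (map_zero φ)
      map_add' := fun a b => Subtype.ext (map_add φ _ _) }
  letI : Algebra ↥R₁ ↥A := ψ.toAlgebra
  letI : Algebra ↥R₁ FK := ((algebraMap ↥A FK).comp ψ).toAlgebra
  haveI : IsScalarTower ↥R₁ ↥A FK := IsScalarTower.of_algebraMap_eq fun _ => rfl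
  -- `A` is integral over `R₁`
  have hA : ∀ a : FK, ∀ ha : a ∈ A, IsIntegral ↥R₁ (⟨a, ha⟩ : ↥A) := by
    intro a ha
    induction ha using Algebra.adjoin_induction with
    | mem z hz =>
      have hz' : z = φ x := Set.mem_singleton_iff.1 hz
      subst hz'
      exact (isIntegral_algebraMap (R := ↥R₁) (A := ↥A)
        (x := (⟨x, Algebra.subset_adjoin (Set.mem_singleton x)⟩ : ↥R₁)))
    | algebraMap c =>
      have hc : IsIntegral K c := Algebra.IsIntegral.isIntegral c
      have := IsIntegral.map_of_comp_eq (algebraMap K ↥R₁) (algebraMap Kb ↥A)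
        (RingHom.ext fun c₀ => Subtype.ext (hφ c₀)) hc
      exact this
    | add a b ha hb h1 h2 => exact h1.add h2
    | mul a b ha hb h1 h2 => exact h1.mul h2
  haveI : Algebra.IsIntegral ↥R₁ ↥A := ⟨fun a => hA a.1 a.2⟩
  have h1 : IsIntegral ↥R₁ (φ g) := isIntegral_trans (R := ↥R₁) (A := ↥A) (φ g) hg
  -- back to `F`
  let φ' : F →ₐ[↥R₁] FK := { φ with commutes' := fun r => rfl }
  exact (isIntegral_algHom_iff φ' φ.injective).1 h1

end Descent

section Lift

variable {K Kb : Type*} [Field K] [Field Kb] [Algebra K Kb] [IsAlgClosed Kb]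
  [Algebra.IsAlgebraic K Kb]

/-- an embedding of an intermediate field into the algebraic closure extends to an automorphism -/
theorem ffi_gn_lift (M : IntermediateField K Kb) (σ : ↥M →ₐ[K] Kb) :
    ∃ σb : Kb ≃ₐ[K] Kb, ∀ m : ↥M, σb (m : Kb) = σ m := by
  haveI : IsAlgClosure K Kb := ⟨inferInstance, inferInstance⟩
  haveI : Normal K Kb := IsAlgClosure.normal K Kb
  refine ⟨AlgEquiv.ofBijective (σ.liftNormal Kb) (Algebra.IsAlgebraic.algHom_bijective _),
    fun m => ?_⟩
  exact AlgHom.liftNormal_commutes σ Kb m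

end Lift

/-- **[P-GN]**: geometric normality by Galois trace -/
theorem ffi_gn : ffi_SeamGN := by
  intro K _ _ Kb _ _ _ _ F _ _ FK _ _ φ hφ hspan hτ x f hf
  classical
  obtain ⟨c, hc⟩ := Finsupp.mem_span_range_iff_exists_finsupp.1 (hspan f)
  -- the field of coefficients
  let M : IntermediateField K Kb := IntermediateField.adjoin K ((c.support.image c : Finset Kb) : Set Kb)
  haveI : FiniteDimensional K ↥M :=
    IntermediateField.finiteDimensional_adjoin fun z _ => Algebra.IsIntegral.isIntegral z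
  have hcM : ∀ i : F, c i ∈ M := by
    intro i
    by_cases hi : i ∈ c.support
    · exact IntermediateField.subset_adjoin K _ (Finset.mem_coe.2 (Finset.mem_image_of_mem c hi))
    · rw [Finsupp.notMem_support_iff.1 hi]
      exact zero_mem _
  let b := Module.finBasis K ↥M
  let bd := (Algebra.traceForm K ↥M).dualBasis (traceForm_nondegenerate K ↥M) b
  -- coefficients
  obtain ⟨a, ha⟩ : ∃ a : F → Fin (Module.finrank K ↥M) → K,
      ∀ i, c i = ∑ j, algebraMap K Kb (a i j) * (b j : Kb) := by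
    refine ⟨fun i j => b.repr ⟨c i, hcM i⟩ j, fun i => ?_⟩
    have h := b.sum_repr ⟨c i, hcM i⟩
    have h2 := congrArg (fun m : ↥M => (m : Kb)) h
    simp only [IntermediateField.coe_sum, IntermediateField.coe_smul] at h2
    rw [← h2]
    exact Finset.sum_congr rfl fun j _ => Algebra.smul_def _ _
  let g : Fin (Module.finrank K ↥M) → F := fun j => ∑ i ∈ c.support, a i j • i
  have hφsmul : ∀ (k : K) (y : F), φ (k • y) = algebraMap K Kb k • φ y := by
    intro k y
    rw [Algebra.smul_def, map_mul, hφ, Algebra.smul_def]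
  have hfg : f = ∑ j, (b j : Kb) • φ (g j) := by
    rw [← hc, Finsupp.sum]
    simp only [g, map_sum, hφsmul, Finset.smul_sum, smul_smul]
    rw [Finset.sum_comm]
    refine Finset.sum_congr rfl fun i _ => ?_
    rw [← Finset.sum_smul]
    congr 1
    rw [ha i]
    exact Finset.sum_congr rfl fun j _ => mul_comm _ _
  choose σb hσb using fun σ : ↥M →ₐ[K] Kb => ffi_gn_lift M σ
  choose τ hτ1 hτ2 using fun σ : ↥M →ₐ[K] Kb => hτ (σb σ)
  have hτf : ∀ σ : ↥M →ₐ[K] Kb, τ σ f = ∑ j, σ (b j) • φ (g j) := by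
    intro σ
    rw [hfg, map_sum]
    refine Finset.sum_congr rfl fun j _ => ?_
    rw [Algebra.smul_def, map_mul, hτ1, hτ2, hσb, ← Algebra.smul_def]
  have hkey : ∀ j₀, φ (g j₀) = ∑ σ : ↥M →ₐ[K] Kb, σ (bd j₀) • τ σ f := by
    intro j₀
    simp only [hτf, Finset.smul_sum, smul_smul]
    rw [Finset.sum_comm]
    have h3 : ∀ j, ∑ σ : ↥M →ₐ[K] Kb, (σ (bd j₀) * σ (b j)) • φ (g j) =
        (if j = j₀ then (1 : Kb) else 0) • φ (g j) := by
      intro j
      rw [← Finset.sum_smul]
      congr 1
      have h1 : ∀ σ : ↥M →ₐ[K] Kb, σ (bd j₀) * σ (b j) = σ (bd j₀ * b j) :=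
        fun σ => (map_mul σ _ _).symm
      simp only [h1]
      rw [← trace_eq_sum_embeddings Kb (K := K) (L := ↥M)]
      have h2 : Algebra.trace K ↥M (bd j₀ * b j) = if j = j₀ then 1 else 0 := by
        have := LinearMap.BilinForm.apply_dualBasis_left (B := Algebra.traceForm K ↥M)
          (traceForm_nondegenerate K ↥M) b j₀ j
        rwa [Algebra.traceForm_apply] at this
      rw [h2]
      split_ifs <;> simp
    simp only [h3]
    simp
  have hint : ∀ j, IsIntegral ↥(Algebra.adjoin Kb ({φ x} : Set FK)) (φ (g j)) := by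
    intro j
    rw [hkey]
    refine IsIntegral.sum _ fun σ _ => ?_
    exact IsIntegral.smul _ (ffi_gn_aut (τ σ) (σb σ) (hτ1 σ) (φ x) (hτ2 σ x) hf)
  have hg : ∀ j, IsIntegral ↥(Algebra.adjoin K ({x} : Set F)) (g j) :=
    fun j => ffi_gn_descent φ hφ x (g j) (hint j)
  rw [hfg]
  exact Submodule.sum_mem _ fun j _ =>
    Submodule.smul_mem _ _ (Submodule.subset_span ⟨g j, hg j, rfl⟩)

end Fermat.Agent.FF

end
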