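/-
Project FF (S19), cell [INST], sub-cell [I-PKG], leaf **[P-PD]** (helper9).  Prefix `ffi_pd_`.

`theorem ffi_pd : ffi_SeamPD` : two compatible chart comparisons `k ⊗ 𝒜 ≅ chart of x_k`,
`k ⊗ 𝒜' ≅ chart of x_k⁻¹` give the pre-dictionary `ffi_IsPreDict`.

* `ffi_pd_isUnit_map_iff`   : `φ w` is a unit of `R / (t)` iff `(w) + (t) = R`;
* `ffi_pd_sup_eq_top_iff`   : in a Dedekind chart `B` of `y` (here `y = x_k⁻¹`), `(w) + (t) = B`
                              (`t ↦ y`) iff `w ≠ 0` has order `0` at every zero of `y`;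
* `ffi_pd_core`             : the abstract core (no `F`, no `x`: a division map `d m : Λ m → 𝒜'`,
                              `a ↦ a x^{-m}`, with `lead m = (d m mod t)`);
* `ffi_pd`                  : the seam.
-/
import Mathlib
import Fermat.Agent.FF.Inst.Pkg.Seams
import Fermat.Agent.FF.Inst.ChartFrac
import Fermat.Agent.FF.Dict.LSpace

set_option autoImplicit false
set_option linter.unusedSectionVars false
set_option linter.unusedVariables false

noncomputable section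

namespace Fermat.Agent.FF

open AlgebraicCurve IsDedekindDomain Fermat.Agent.S24 Fermat.Agent.JT3
open scoped TensorProduct

/-! ### units modulo a principal ideal -/

/-- `φ w` is a unit of `R / (t)` iff `(w) + (t) = R`. -/
theorem ffi_pd_isUnit_map_iff {R S : Type*} [CommRing R] [CommRing S] (φ : R →+* S)
    (hφ : Function.Surjective φ) (t : R) (hker : RingHom.ker φ = Ideal.span {t}) (w : R) :
    IsUnit (φ w) ↔ Ideal.span {w} ⊔ Ideal.span {t} = ⊤ := by
  rw [Ideal.eq_top_iff_one, Submodule.mem_sup]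
  constructor
  · intro h
    obtain ⟨s, hs⟩ := h.exists_right_inv
    obtain ⟨w', rfl⟩ := hφ s
    have h1 : w * w' - 1 ∈ Ideal.span {t} := by
      rw [← hker, RingHom.mem_ker, map_sub, map_mul, hs, map_one, sub_self]
    exact ⟨w * w', Ideal.mul_mem_right _ _ (Ideal.subset_span rfl), -(w * w' - 1), neg_mem h1,
      by ring⟩
  · rintro ⟨a, ha, b, hb, hab⟩
    obtain ⟨c, rfl⟩ := Ideal.mem_span_singleton'.mp ha
    have hb0 : φ b = 0 := by rw [← RingHom.mem_ker, hker]; exact hb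
    have h1 : φ w * φ c = 1 := by
      rw [← map_mul, ← map_one φ, ← hab, map_add, hb0, add_zero, mul_comm]
    exact IsUnit.of_mul_eq_one _ h1

/-! ### coprimality to the divisor of zeros of `y` in a chart of `y` -/

section chart

universe u v w
variable {K : Type u} {F : Type v} [Field K] [IsAlgClosed K] [Field F] [Algebra K F] {y : F}
  (hy : rt_IsSepGen K y)
  {B : Type w} [CommRing B] [IsDedekindDomain B] [Algebra K B] [Algebra B F]
  [IsScalarTower K B F] [IsFractionRing B F] (hB : ffd_IsChart K B y)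

include hy hB

/-- `y` has a zero: a preimage of `y` in the chart of `y` is not a unit. -/
theorem ffi_pd_not_isUnit (t : B) (ht : algebraMap B F t = y) : ¬ IsUnit t := by
  intro hu
  have hy0 : y ≠ 0 := ffd_x_ne_zero hy
  -- `y⁻¹` lies in the chart, hence is regular everywhere
  obtain ⟨s, hs⟩ := hu.exists_right_inv
  have hs' : algebraMap B F s = y⁻¹ := by
    have := congrArg (algebraMap B F) hs
    rw [map_mul, map_one, ht] at this
    exact eq_inv_of_mul_eq_one_right this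
  have hall : ∀ v : Place K F, y⁻¹ ∈ v.toValuationSubring := by
    intro v
    rcases v.toValuationSubring.mem_or_inv_mem y with h | h
    · exact (hB _).mp ⟨s, hs'⟩ v h
    · exact h
  obtain ⟨c, hc⟩ := rt_const_of_forall_mem hy y⁻¹ hall
  apply hy.1
  have h1 : IsAlgebraic K y⁻¹ := by rw [hc]; exact isAlgebraic_algebraMap c
  have h2 := h1.inv
  rwa [inv_inv] at h2

/-- in a Dedekind chart `B` of `y`: `(w) + (t) = B` (`t ↦ y`) iff `w ≠ 0` has order `0` at every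
zero of `y`. -/
theorem ffi_pd_sup_eq_top_iff (t : B) (ht : algebraMap B F t = y) (w : B) :
    Ideal.span {w} ⊔ Ideal.span {t} = ⊤ ↔
      (w ≠ 0 ∧ ∀ v : Place K F, y⁻¹ ∉ v.toValuationSubring → v.ord (algebraMap B F w) = 0) := by
  have hy0 : y ≠ 0 := ffd_x_ne_zero hy
  have ht0 : t ≠ 0 := by
    rintro rfl
    rw [map_zero] at ht
    exact hy0 ht.symm
  constructor
  · intro hsup
    have hw0 : w ≠ 0 := by
      rintro rfl
      have h0 : Ideal.span ({0} : Set B) = ⊥ := Ideal.span_singleton_eq_bot.mpr rfl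
      rw [h0, bot_sup_eq, Ideal.span_singleton_eq_top] at hsup
      exact ffi_pd_not_isUnit hy hB t ht hsup
    refine ⟨hw0, fun v hv => ?_⟩
    have hyv : y ∈ v.toValuationSubring := by
      rcases v.toValuationSubring.mem_or_inv_mem y with h | h
      · exact h
      · exact absurd h hv
    have hfin : ffd_IsFin B v := (hB.isFin_iff v).mpr hyv
    have hordy : 0 < v.ord y := by
      have h1 : ¬ 0 ≤ v.ord y⁻¹ := by
        rw [← hw_mem_iff_ord_nonneg v (inv_ne_zero hy0)]; exact hv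
      rw [Place.ord_inv] at h1
      omega
    have hvQ := hw_placeOfPrime_primeOfPlace v hfin
    have htQ : t ∈ (hw_primeOfPlace v hfin).asIdeal := by
      rw [ffd_mem_prime_iff (K := K) (F := F) _ t ht0, hvQ, ht]
      exact hordy
    have hw' : algebraMap B F w ≠ 0 := ffd_map_ne_zero hw0
    have hge : 0 ≤ v.ord (algebraMap B F w) := (hw_mem_iff_ord_nonneg v hw').mp (hfin w)
    by_contra hne
    have hpos : 0 < v.ord (algebraMap B F w) := lt_of_le_of_ne hge (Ne.symm hne)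
    have hwQ : w ∈ (hw_primeOfPlace v hfin).asIdeal := by
      rw [ffd_mem_prime_iff (K := K) (F := F) _ w hw0, hvQ]
      exact hpos
    have hle : Ideal.span {w} ⊔ Ideal.span {t} ≤ (hw_primeOfPlace v hfin).asIdeal :=
      sup_le ((Ideal.span_singleton_le_iff_mem _).mpr hwQ)
        ((Ideal.span_singleton_le_iff_mem _).mpr htQ)
    rw [hsup, top_le_iff] at hle
    exact (hw_primeOfPlace v hfin).isPrime.ne_top hle
  · rintro ⟨hw0, hord⟩
    by_contra hne
    obtain ⟨M, hM, hle⟩ := Ideal.exists_le_maximal _ hne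
    have hwM : w ∈ M := hle (Ideal.mem_sup_left (Ideal.subset_span rfl))
    have htM : t ∈ M := hle (Ideal.mem_sup_right (Ideal.subset_span rfl))
    have hMbot : M ≠ ⊥ := by
      rintro rfl
      exact hw0 ((Ideal.mem_bot).mp hwM)
    set Q : HeightOneSpectrum B := ⟨M, hM.isPrime, hMbot⟩ with hQ
    set v : Place K F := hw_placeOfPrime B Q with hv
    have h1 : 0 < v.ord (algebraMap B F t) :=
      (ffd_mem_prime_iff (K := K) (F := F) Q t ht0).mp htM
    have h2 : 0 < v.ord (algebraMap B F w) :=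
      (ffd_mem_prime_iff (K := K) (F := F) Q w hw0).mp hwM
    rw [ht] at h1
    have hpole : y⁻¹ ∉ v.toValuationSubring := by
      rw [hw_mem_iff_ord_nonneg v (inv_ne_zero hy0), Place.ord_inv]
      omega
    have := hord v hpole
    omega

end chart

/-! ### the abstract core -/

section core

variable (O : Type) [CommRing O] (𝒜 : Type) [CommRing 𝒜] [Algebra O 𝒜]
  (𝒜' : Type) [CommRing 𝒜'] [Algebra O 𝒜'] (t : 𝒜')
  (Λ : ℕ → Submodule O 𝒜) (d : ∀ m, ↥(Λ m) →ₗ[O] 𝒜')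
  (k : Type) [Field k] [Algebra O k]

/-- the division maps on the fibre: `k ⊗ Λ m → k ⊗ 𝒜'`. -/
def ffi_pd_dk (m : ℕ) : k ⊗[O] ↥(Λ m) →ₗ[k] k ⊗[O] 𝒜' := (d m).baseChange k

/-- the reduction modulo `t` on the fibre: `k ⊗ 𝒜' → k ⊗ 𝒜' / (t)`. -/
def ffi_pd_red : k ⊗[O] 𝒜' →ₐ[O] k ⊗[O] (𝒜' ⧸ Ideal.span {t}) :=
  Algebra.TensorProduct.map (AlgHom.id O k) (Ideal.Quotient.mkₐ O (Ideal.span {t}))

theorem ffi_pd_red_surjective : Function.Surjective (ffi_pd_red O 𝒜' t k) :=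
  Algebra.TensorProduct.map_surjective (AlgHom.id O k) (Ideal.Quotient.mkₐ O (Ideal.span {t}))
    Function.surjective_id (Ideal.Quotient.mkₐ_surjective O _)

theorem ffi_pd_ker_red :
    RingHom.ker (ffi_pd_red O 𝒜' t k : k ⊗[O] 𝒜' →+* k ⊗[O] (𝒜' ⧸ Ideal.span {t})) =
      Ideal.span {(1 : k) ⊗ₜ[O] t} := by
  have h := Algebra.TensorProduct.lTensor_ker (A := k)
    (Ideal.Quotient.mkₐ O (Ideal.span {t})) (Ideal.Quotient.mkₐ_surjective O _)
  have h2 : RingHom.ker (Ideal.Quotient.mkₐ O (Ideal.span {t})) = Ideal.span {t} :=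
    Ideal.Quotient.mkₐ_ker O _
  rw [h2, Ideal.map_span, Set.image_singleton] at h
  exact h

variable {O 𝒜 𝒜' t Λ d k}

theorem ffi_pd_leadk_eq (lead : ∀ m, ↥(Λ m) →ₗ[O] 𝒜' ⧸ Ideal.span {t})
    (hlead : ∀ m a, lead m a = Ideal.Quotient.mk _ (d m a)) (m : ℕ) (u : k ⊗[O] ↥(Λ m)) :
    ff_leadk O 𝒜 (𝒜' ⧸ Ideal.span {t}) k Λ lead m u =
      ffi_pd_red O 𝒜' t k (ffi_pd_dk O 𝒜 𝒜' Λ d k m u) := by
  induction u using TensorProduct.induction_on with
  | zero => rw [map_zero, map_zero, map_zero]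
  | tmul c a =>
    rw [ff_leadk, ffi_pd_dk, LinearMap.baseChange_tmul, LinearMap.baseChange_tmul, ffi_pd_red,
      Algebra.TensorProduct.map_tmul, hlead]
    rfl
  | add u₁ u₂ h₁ h₂ => rw [map_add, map_add, map_add, h₁, h₂]

variable {Fk : Type} [Field Fk] [Algebra k Fk] {xk : Fk}
  {ι : k ⊗[O] 𝒜 →ₐ[k] Fk} {ι' : k ⊗[O] 𝒜' →ₐ[k] Fk}

theorem ffi_pd_incl_eq
    (hcompat : ∀ (m : ℕ) (a : ↥(Λ m)), ι (1 ⊗ₜ[O] (a : 𝒜)) = xk ^ m * ι' (1 ⊗ₜ[O] d m a))
    (m : ℕ) (u : k ⊗[O] ↥(Λ m)) :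
    ι (ff_incl O 𝒜 k Λ m u) = xk ^ m * ι' (ffi_pd_dk O 𝒜 𝒜' Λ d k m u) := by
  induction u using TensorProduct.induction_on with
  | zero => rw [map_zero, map_zero, map_zero, map_zero, mul_zero]
  | tmul c a =>
    rw [ff_incl, ffi_pd_dk, LinearMap.baseChange_tmul, LinearMap.baseChange_tmul,
      Submodule.subtype_apply]
    have h1 : c ⊗ₜ[O] (a : 𝒜) = c • ((1 : k) ⊗ₜ[O] (a : 𝒜)) := by
      rw [TensorProduct.smul_tmul', smul_eq_mul, mul_one]
    have h2 : c ⊗ₜ[O] d m a = c • ((1 : k) ⊗ₜ[O] d m a) := by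
      rw [TensorProduct.smul_tmul', smul_eq_mul, mul_one]
    rw [h1, h2, map_smul, map_smul, hcompat, mul_smul_comm]
  | add u₁ u₂ h₁ h₂ => rw [map_add, map_add, map_add, map_add, h₁, h₂, mul_add]

end core

set_option maxHeartbeats 1000000 in
/-- **the abstract core of [P-PD]**: `d m : Λ m → 𝒜'` is the division by `x^m`, `t = x⁻¹ ∈ 𝒜'`,
`C = 𝒜' / (t)`, `lead m = (d m mod t)`. -/
theorem ffi_pd_core (O : Type) [CommRing O] (𝒜 : Type) [CommRing 𝒜] [Algebra O 𝒜]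
    (𝒜' : Type) [CommRing 𝒜'] [Algebra O 𝒜'] (t : 𝒜')
    (Λ : ℕ → Submodule O 𝒜) (d : ∀ m, ↥(Λ m) →ₗ[O] 𝒜')
    (lead : ∀ m, ↥(Λ m) →ₗ[O] 𝒜' ⧸ Ideal.span {t})
    (hlead : ∀ m a, lead m a = Ideal.Quotient.mk _ (d m a))
    (k : Type) [Field k] [IsAlgClosed k] [Algebra O k] (Fk : Type) [Field Fk] [Algebra k Fk]
    (xk : Fk) (ι : k ⊗[O] 𝒜 →ₐ[k] Fk) (ι' : k ⊗[O] 𝒜' →ₐ[k] Fk) (m1 : ℕ)
    (hsep : rt_IsSepGen k xk) (hinj : Function.Injective ι) (hinj' : Function.Injective ι')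
    (hch : ∀ f : Fk, f ∈ ι.range ↔
      ∀ v : Place k Fk, xk ∈ v.toValuationSubring → f ∈ v.toValuationSubring)
    (hch' : ∀ f : Fk, f ∈ ι'.range ↔
      ∀ v : Place k Fk, xk⁻¹ ∈ v.toValuationSubring → f ∈ v.toValuationSubring)
    (hcompat : ∀ (m : ℕ) (a : ↥(Λ m)), ι (1 ⊗ₜ[O] (a : 𝒜)) = xk ^ m * ι' (1 ⊗ₜ[O] d m a))
    (ht : ι' (1 ⊗ₜ[O] t) = xk⁻¹)
    (hded : IsDedekindDomain (k ⊗[O] 𝒜'))
    (hglue : ∀ m : ℕ, m1 ≤ m → ∀ (b : k ⊗[O] 𝒜) (b' : k ⊗[O] 𝒜'), ι b = xk ^ m * ι' b' →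
      ∃ u : k ⊗[O] ↥(Λ m), ff_incl O 𝒜 k Λ m u = b)
    (hincl : ∀ m, Function.Injective (ff_incl O 𝒜 k Λ m)) :
    ffi_IsPreDict O 𝒜 (𝒜' ⧸ Ideal.span {t}) k Λ lead Fk xk ι m1 := by
  have hx0 : xk ≠ 0 := ffd_x_ne_zero hsep
  have hord_pow : ∀ (v : Place k Fk) (m : ℕ), v.ord (xk ^ m) = (m : ℤ) * v.ord xk := by
    intro v m
    rw [← zpow_natCast, Place.ord_zpow]
  -- regularity of the second chart at the poles of `xk`
  have hreg' : ∀ (w : k ⊗[O] 𝒜') (v : Place k Fk), xk ∉ v.toValuationSubring →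
      ι' w ∈ v.toValuationSubring := by
    intro w v hv
    refine (hch' _).mp ⟨w, rfl⟩ v ?_
    rcases v.toValuationSubring.mem_or_inv_mem xk with h | h
    · exact absurd h hv
    · exact h
  have hpole : ∀ v : Place k Fk, xk ∉ v.toValuationSubring → v.ord xk < 0 := by
    intro v hv
    rw [hw_mem_iff_ord_nonneg v hx0] at hv
    omega
  have hI := ffi_pd_incl_eq (ι := ι) (ι' := ι') (xk := xk) hcompat
  refine ⟨hsep, hinj, hch, hincl, ?_, ?_, ?_⟩
  · -- lam_le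
    intro m u v hv
    rw [hI m u]
    set w := ffi_pd_dk O 𝒜 𝒜' Λ d k m u with hw
    rcases eq_or_ne (ι' w) 0 with h0 | h0
    · rw [h0, mul_zero, Place.ord_zero]
      have := hpole v hv
      have hm : (0 : ℤ) ≤ m := Int.natCast_nonneg m
      nlinarith
    · rw [Place.ord_mul _ (pow_ne_zero m hx0) h0, hord_pow]
      have := (hw_mem_iff_ord_nonneg v h0).mp (hreg' w v hv)
      omega
  · -- lam_ge
    intro m hm b hb
    have hf : ι b * (xk⁻¹) ^ m ∈ ι'.range := by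
      rw [hch']
      intro v hv
      by_cases hxv : xk ∈ v.toValuationSubring
      · exact v.toValuationSubring.mul_mem _ _ ((hch _).mp ⟨b, rfl⟩ v hxv)
          (pow_mem hv m)
      · rcases eq_or_ne (ι b) 0 with h0 | h0
        · rw [h0, zero_mul]; exact zero_mem _
        · have hne : ι b * (xk⁻¹) ^ m ≠ 0 := mul_ne_zero h0 (pow_ne_zero m (inv_ne_zero hx0))
          rw [hw_mem_iff_ord_nonneg v hne, Place.ord_mul _ h0 (pow_ne_zero m (inv_ne_zero hx0)),
            inv_pow, Place.ord_inv, hord_pow]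
          have := hb v hxv
          omega
    obtain ⟨b', hb'⟩ := hf
    have hb'' : ι' b' = ι b * (xk⁻¹) ^ m := hb'
    refine hglue m hm b b' ?_
    rw [hb'', mul_comm, mul_assoc, ← mul_pow, inv_mul_cancel₀ hx0, one_pow, mul_one]
  · -- lead_iff
    intro m u
    have := hded
    let _ : Algebra (k ⊗[O] 𝒜') Fk := ι'.toRingHom.toAlgebra
    have : IsScalarTower k (k ⊗[O] 𝒜') Fk :=
      IsScalarTower.of_algebraMap_eq fun c => (ι'.commutes c).symm
    have hamap : ∀ w : k ⊗[O] 𝒜', algebraMap (k ⊗[O] 𝒜') Fk w = ι' w := fun _ => rfl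
    have hB : ffd_IsChart k (k ⊗[O] 𝒜') xk⁻¹ := by
      intro f
      rw [← hch' f]
      exact Iff.rfl
    have : IsFractionRing (k ⊗[O] 𝒜') Fk :=
      ffi_cf_isFractionRing hsep.inv (k ⊗[O] 𝒜') hinj' hB
    set w := ffi_pd_dk O 𝒜 𝒜' Λ d k m u with hw
    rw [ffi_pd_leadk_eq lead hlead m u, ← hw]
    have h1 := ffi_pd_isUnit_map_iff
      (ffi_pd_red O 𝒜' t k : k ⊗[O] 𝒜' →+* k ⊗[O] (𝒜' ⧸ Ideal.span {t}))
      (ffi_pd_red_surjective O 𝒜' t k) ((1 : k) ⊗ₜ[O] t) (ffi_pd_ker_red O 𝒜' t k) w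
    have h2 := ffi_pd_sup_eq_top_iff hsep.inv hB ((1 : k) ⊗ₜ[O] t) ht w
    rw [inv_inv] at h2
    have h3 : IsUnit (ffi_pd_red O 𝒜' t k w) ↔
        IsUnit ((ffi_pd_red O 𝒜' t k : k ⊗[O] 𝒜' →+* k ⊗[O] (𝒜' ⧸ Ideal.span {t})) w) :=
      Iff.rfl
    rw [h3, h1, h2, hI m u, ← hw]
    have hw0 : w ≠ 0 ↔ ι' w ≠ 0 := by
      rw [Ne, Ne, map_eq_zero_iff _ hinj']
    constructor
    · rintro ⟨hne, hord⟩
      have hne' := hw0.mp hne
      refine ⟨mul_ne_zero (pow_ne_zero m hx0) hne', fun v hv => ?_⟩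
      rw [Place.ord_mul _ (pow_ne_zero m hx0) hne', hord_pow]
      have := hord v hv
      rw [hamap] at this
      omega
    · rintro ⟨hne, hord⟩
      have hne' : ι' w ≠ 0 := right_ne_zero_of_mul hne
      refine ⟨hw0.mpr hne', fun v hv => ?_⟩
      have := hord v hv
      rw [Place.ord_mul _ (pow_ne_zero m hx0) hne', hord_pow] at this
      rw [hamap]
      omega

/-! ### the seam -/

section seam

variable (O : Type) [CommRing O] {F : Type} [Field F] [Algebra O F] (x : F)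

/-- the division map `Λ m → 𝒜'`, `a ↦ a x^{-m}`. -/
def ffi_pd_div (m : ℕ) : ↥(ffi_gLam O x m) →ₗ[O] ↥(fc_chart O ({x⁻¹} : Set F)) where
  toFun a := ⟨((a : ↥(fc_chart O ({x} : Set F))) : F) * x⁻¹ ^ m, a.2⟩
  map_add' a b := Subtype.ext (by simp [add_mul])
  map_smul' c a := Subtype.ext (by simp)

theorem ffi_pd_div_coe (m : ℕ) (a : ↥(ffi_gLam O x m)) :
    ((ffi_pd_div O x m a : ↥(fc_chart O ({x⁻¹} : Set F))) : F) =
      ((a : ↥(fc_chart O ({x} : Set F))) : F) * x⁻¹ ^ m := rfl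

end seam

/-- **[P-PD]**. -/
theorem ffi_pd : ffi_SeamPD := by
  intro O _ _ _ F _ _ π x g n m0 hx0 hF k _ _ _ Fk _ _ xk ι ι' m1 hsep hinj hinj' hch hch' hcompat
    hded hglue hincl
  refine ffi_pd_core O ↥(fc_chart O ({x} : Set F)) ↥(fc_chart O ({x⁻¹} : Set F)) (ffi_gT O x)
    (ffi_gLam O x) (ffi_pd_div O x) (ffi_gLead O x) (fun m a => rfl) k Fk xk ι ι' m1 hsep hinj
    hinj' hch hch' ?_ ?_ hded hglue hincl
  · intro m a
    refine hcompat (a : ↥(fc_chart O ({x} : Set F))) (ffi_pd_div O x m a) m ?_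
    rw [ffi_pd_div_coe, mul_comm (x ^ m), mul_assoc, ← mul_pow, inv_mul_cancel₀ hx0, one_pow,
      mul_one]
  · have h1 := hcompat 1 (ffi_gT O x) 1 (by
      show (1 : F) = x ^ 1 * x⁻¹
      rw [pow_one, mul_inv_cancel₀ hx0])
    have h2 : ι (1 ⊗ₜ[O] (1 : ↥(fc_chart O ({x} : Set F)))) = 1 := map_one ι
    rw [h2, pow_one] at h1
    exact eq_inv_of_mul_eq_one_right h1.symm

end Fermat.Agent.FF
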