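/-
Project FF (S19), cell [INST], leaf [P-Dκ] (helper21): THE SPECIAL FIBRE of the modular model.
`theorem ffi_dkap (N) [NeZero N] (ℓ) : ffi_SeamDκ N ℓ`.  Prefix `ffi_dkap_`.

`κ_A ⊗ 𝒜 = 𝒜 / ℓ ≅` the `j̃`-chart of `F̃_N` by coefficientwise reduction of `q`-expansions
(`DKap/Red.lean`: the reduction lies in `F̃_N` by `rpm_mem_int`, its kernel on a chart is `(ℓ)` by
`rpn_Level0.ker`; `DKap/Chart.lean`: a Dedekind domain integral over `κ[j̃]` with fraction field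
`F̃_N` IS the chart; `DKap/OneChart.lean`), the same for `𝒜'`; gluing from the Čech statement
(`DKap/Glue.lean`); injectivity of `κ ⊗ Λ m → κ ⊗ 𝒜` from saturation (`DKap/Fibre.lean`).
`ffi_dkap_gen` is GENERIC in the residue field `π : A → κ` (`ffi_ResOK`).
-/
import Mathlib
import Fermat.Agent.FF.Inst.Pkg.DKap.Glue
import Fermat.Agent.JT3.Inst.Vert

set_option autoImplicit false
set_option linter.style.haveILetI false
set_option linter.unusedSectionVars false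

noncomputable section

namespace Fermat.Agent.FF

open ModularCurve AlgebraicCurve Fermat.Agent.JT3 Fermat.Agent.S24 Polynomial
open scoped TensorProduct

section Main

variable (A : ValuationSubring ff_Qb) (L : Type) [Field L] [Algebra ℚ L] [Algebra L ff_Qb]
  [IsScalarTower ℚ L ff_Qb] [IsDiscreteValuationRing ↥(ffi_O A L)] (N : ℕ) [NeZero N]
  (κ : Type) [Field κ] [Algebra ↥(ffi_O A L) κ]
  {ℓ : ℕ} [Fact ℓ.Prime]

/-- instance shortcut (the generic search is slow). -/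
local instance (priority := 10000) ffi_dkap_instAlgOF'' :
    Algebra ↥(ffi_O A L) ↥(modularFunctionFieldFullC L N) := inferInstance

/-- instance shortcut (the generic search is slow). -/
local instance (priority := 10000) ffi_dkap_instAlgKF'' :
    Algebra κ ↥(modularFunctionFieldFullC κ N) := inferInstance

/-- a ring homomorphism `ℤ_(ℓ) → O₁`. -/
theorem ffi_dkap_exists_rho (lvl : ffi_LvlOK A L ℓ) :
    Nonempty (↥(GaloisRep.ratLocalizedAt ℓ) →+* ↥(ffi_O A L)) := by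
  haveI : CharZero L := algebraRat.charZero L
  refine lgv_exists_rhoO (L := L) (O := ↥(ffi_O A L)) (fun a b hab => Subtype.ext hab) ℓ ?_
  rw [lvl.irr.maximalIdeal_eq]
  exact Ideal.mem_span_singleton_self _

/-- the reduction of `j` on the chart `𝒜`. -/
theorem ffi_dkap_redChart_j (π : ↥A →+* κ) (hℓN : ¬ ℓ ∣ N) (hA : A.LiesOverPrime ℓ)
    (hres : ffi_ResOK A L κ π)
    (H1 : rpn_Level0 (modularFunctionFieldFullC L N) ((ℓ : ℕ) : ↥(ffi_O A L)) (ffi_j L N)) :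
    ffi_dkap_redChart A L N κ π hℓN hA hres H1 ⟨ffi_j L N, fc_x_mem_chart _⟩ = ffi_j κ N :=
  ffi_dkap_red_j A L N κ π hℓN hA hres

/-- the reduction of `j⁻¹` on the chart `𝒜'`. -/
theorem ffi_dkap_redChart_jinv (π : ↥A →+* κ) (hℓN : ¬ ℓ ∣ N) (hA : A.LiesOverPrime ℓ)
    (hres : ffi_ResOK A L κ π)
    (H2 : rpn_Level0 (modularFunctionFieldFullC L N) ((ℓ : ℕ) : ↥(ffi_O A L)) (ffi_j L N)⁻¹) :
    ffi_dkap_redChart A L N κ π hℓN hA hres H2 ⟨(ffi_j L N)⁻¹, fc_x_mem_chart _⟩ =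
      (ffi_j κ N)⁻¹ := by
  have hjinvI : (ffi_j L N)⁻¹ ∈ ffi_dkap_Int A L N := H2.qint _ (fc_x_mem_chart _)
  have h1 : (⟨(ffi_j L N)⁻¹, hjinvI⟩ : ↥(ffi_dkap_Int A L N)) *
      ⟨ffi_j L N, ffi_dkap_j_mem_Int A L N⟩ = 1 :=
    Subtype.ext (inv_mul_cancel₀ (ffi_dkap_j_ne_zero L N))
  have h2 := congrArg (ffi_dkap_red A L N κ π hℓN hA hres) h1
  rw [map_mul, map_one, ffi_dkap_red_j] at h2
  exact eq_inv_of_mul_eq_one_left h2

set_option maxHeartbeats 1600000 in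
/-- **[P-Dκ], generic in the residue field.** -/
theorem ffi_dkap_gen [IsAlgClosed κ] (hℓN : ¬ ℓ ∣ N) (hA : A.LiesOverPrime ℓ)
    (π : ↥A →+* κ) (hres : ffi_ResOK A L κ π) (lvl : ffi_LvlOK A L ℓ)
    (H1 : rpn_Level0 (modularFunctionFieldFullC L N) ((ℓ : ℕ) : ↥(ffi_O A L)) (ffi_j L N))
    (H2 : rpn_Level0 (modularFunctionFieldFullC L N) ((ℓ : ℕ) : ↥(ffi_O A L)) (ffi_j L N)⁻¹)
    (g n m0 : ℕ)
    (hF : ffi_IsFilt ↥(ffi_O A L) ↥(ffi_A1 A L N) (ffi_gC ↥(ffi_O A L) (ffi_j L N))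
      ((ℓ : ℕ) : ↥(ffi_O A L)) (ffi_gLam ↥(ffi_O A L) (ffi_j L N))
      (ffi_gLead ↥(ffi_O A L) (ffi_j L N)) g n m0)
    (hcech : ∀ m : ℕ, m0 ≤ m + 1 → ∀ f ∈ fc_chart ↥(ffi_O A L)
        ({ffi_j L N, (ffi_j L N)⁻¹} : Set ↥(modularFunctionFieldFullC L N)),
      ∃ a ∈ ffi_A1 A L N, ∃ b ∈ ffi_A2 A L N, f = a + ffi_j L N ^ m * b) :
    ∃ (ικ : κ ⊗[↥(ffi_O A L)] ↥(ffi_A1 A L N) →ₐ[κ] ↥(modularFunctionFieldFullC κ N))
      (ικ' : κ ⊗[↥(ffi_O A L)] ↥(ffi_A2 A L N) →ₐ[κ] ↥(modularFunctionFieldFullC κ N)),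
      rt_IsSepGen κ (ffi_j κ N) ∧
      Function.Injective ικ ∧ Function.Injective ικ' ∧
      (∀ f : ↥(modularFunctionFieldFullC κ N), f ∈ ικ.range ↔
        ∀ v : Place κ ↥(modularFunctionFieldFullC κ N),
          ffi_j κ N ∈ v.toValuationSubring → f ∈ v.toValuationSubring) ∧
      (∀ f : ↥(modularFunctionFieldFullC κ N), f ∈ ικ'.range ↔
        ∀ v : Place κ ↥(modularFunctionFieldFullC κ N),
          (ffi_j κ N)⁻¹ ∈ v.toValuationSubring → f ∈ v.toValuationSubring) ∧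
      (∀ (a : ↥(ffi_A1 A L N)) (w : LaurentSeries ↥(ffi_O A L)),
        coeffMap (algebraMap ↥(ffi_O A L) L) w =
          ((a : ↥(modularFunctionFieldFullC L N)) : LaurentSeries L) →
        ((ικ (1 ⊗ₜ[↥(ffi_O A L)] a) : ↥(modularFunctionFieldFullC κ N)) : LaurentSeries κ) =
          coeffMap (algebraMap ↥(ffi_O A L) κ) w) ∧
      (∀ (b : ↥(ffi_A2 A L N)) (w : LaurentSeries ↥(ffi_O A L)),
        coeffMap (algebraMap ↥(ffi_O A L) L) w =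
          ((b : ↥(modularFunctionFieldFullC L N)) : LaurentSeries L) →
        ((ικ' (1 ⊗ₜ[↥(ffi_O A L)] b) : ↥(modularFunctionFieldFullC κ N)) : LaurentSeries κ) =
          coeffMap (algebraMap ↥(ffi_O A L) κ) w) ∧
      IsDedekindDomain (κ ⊗[↥(ffi_O A L)] ↥(ffi_A1 A L N)) ∧
      ¬ IsField (κ ⊗[↥(ffi_O A L)] ↥(ffi_A1 A L N)) ∧
      IsDedekindDomain (κ ⊗[↥(ffi_O A L)] ↥(ffi_A2 A L N)) ∧
      (∀ (m : ℕ), m0 ≤ m + 1 →
        ∀ (b : κ ⊗[↥(ffi_O A L)] ↥(ffi_A1 A L N)) (b' : κ ⊗[↥(ffi_O A L)] ↥(ffi_A2 A L N)),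
        ικ b = ffi_j κ N ^ m * ικ' b' →
        ∃ u : κ ⊗[↥(ffi_O A L)] ↥(ffi_gLam ↥(ffi_O A L) (ffi_j L N) m),
          ff_incl ↥(ffi_O A L) ↥(ffi_A1 A L N) κ (ffi_gLam ↥(ffi_O A L) (ffi_j L N)) m u = b) ∧
      (∀ m, Function.Injective
        (ff_incl ↥(ffi_O A L) ↥(ffi_A1 A L N) κ (ffi_gLam ↥(ffi_O A L) (ffi_j L N)) m)) := by
  have hsurj := ffi_dkap_res_surj A L κ π ℓ lvl hres
  have hker := ffi_dkap_res_ker A L κ π ℓ lvl hres
  haveI : CharP κ ℓ := ffi_dkap_charP A L κ π ℓ lvl hres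
  obtain ⟨ρO⟩ := ffi_dkap_exists_rho A L lvl
  have hsep : rt_IsSepGen κ (ffi_j κ N) :=
    jcr_isSepGen N hℓN ((algebraMap ↥(ffi_O A L) κ).comp ρO)
  obtain ⟨inj1, ch1, ded1, nf1⟩ := ffi_dkap_oneChart A L N κ π hℓN hA hres lvl H1 hsep
    (ffi_dkap_redChart_j A L N κ π hℓN hA hres H1)
    (fun d _ hd => ⟨0, by
      rw [pow_zero, one_mul]
      exact rpn_gen_mem_of_not_dvd (ffi_O A L) ρO hℓN hd⟩)
  obtain ⟨inj2, ch2, ded2, -⟩ := ffi_dkap_oneChart A L N κ π hℓN hA hres lvl H2 hsep.inv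
    (ffi_dkap_redChart_jinv A L N κ π hℓN hA hres H2)
    (fun d _ hd => rpn_gen_mem_inv_of_not_dvd (ffi_O A L) ρO hℓN hd)
  refine ⟨ffi_dkap_iota A L N κ π hℓN hA hres H1, ffi_dkap_iota A L N κ π hℓN hA hres H2,
    hsep, inj1, inj2, ch1, ch2, ?_, ?_, ded1, nf1, ded2, ?_, ?_⟩
  · intro a w hw
    rw [ffi_dkap_iota_one_tmul]
    exact ffi_dkap_redChart_coe A L N κ π hℓN hA hres H1 a w hw
  · intro b w hw
    rw [ffi_dkap_iota_one_tmul]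
    exact ffi_dkap_redChart_coe A L N κ π hℓN hA hres H2 b w hw
  · intro m hm b b' h
    obtain ⟨a, rfl⟩ := ffi_dkap_tmul_surj hsurj b
    obtain ⟨a', rfl⟩ := ffi_dkap_tmul_surj hsurj b'
    rw [ffi_dkap_iota_one_tmul, ffi_dkap_iota_one_tmul] at h
    obtain ⟨a₁, ha₁⟩ := ffi_dkap_glue A L N κ π hℓN hA hres lvl H1 H2 m (hcech m hm) a a' h
    refine ⟨(1 : κ) ⊗ₜ[↥(ffi_O A L)] ⟨_, ha₁⟩, ?_⟩
    rw [ff_incl, LinearMap.baseChange_tmul]
    change (1 : κ) ⊗ₜ[↥(ffi_O A L)]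
      (a - algebraMap ↥(ffi_O A L) ↥(ffi_A1 A L N) ((ℓ : ℕ) : ↥(ffi_O A L)) * a₁) = _
    have h0 : (1 : κ) ⊗ₜ[↥(ffi_O A L)]
        (algebraMap ↥(ffi_O A L) ↥(ffi_A1 A L N) ((ℓ : ℕ) : ↥(ffi_O A L)) * a₁) = 0 :=
      (ffi_dkap_tmul_eq_zero hsurj hker _).2 ⟨a₁, by rw [Algebra.smul_def]⟩
    rw [TensorProduct.tmul_sub, h0, sub_zero]
  · intro m
    exact ffi_dkap_baseChange_inj hsurj hker _ (hF.sat m)

end Main

/-- the residue field of `A` with `ffi_algOκ` satisfies `ffi_ResOK`. -/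
theorem ffi_dkap_resOK (A : ValuationSubring ff_Qb) (L : Type) [Field L] [Algebra L ff_Qb] :
    letI := ffi_algOκ A L
    ffi_ResOK A L (IsLocalRing.ResidueField ↥A) (IsLocalRing.residue ↥A) := by
  letI := ffi_algOκ A L
  refine ⟨IsLocalRing.residue_surjective, fun a => ?_, fun o => rfl⟩
  rw [IsLocalRing.residue_eq_zero_iff, A.mem_nonunits_iff_exists_mem_maximalIdeal]
  exact ⟨fun h => ⟨a.2, h⟩, fun ⟨_, h⟩ => h⟩

set_option synthInstance.maxHeartbeats 400000 in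
set_option maxHeartbeats 1600000 in
/-- **[P-Dκ]** the chart comparisons of the special fibre. -/
theorem ffi_dkap (N : ℕ) [NeZero N] (ℓ : ℕ) : ffi_SeamDκ N ℓ := by
  intro hℓ hℓN A hA L _ _ _ _ _ lvl H1 H2 g n m0 hF hcech
  haveI : Fact ℓ.Prime := ⟨hℓ⟩
  haveI := lvl.algClosed
  letI := ffi_algOκ A L
  exact ffi_dkap_gen A L N (IsLocalRing.ResidueField ↥A) hℓN hA (IsLocalRing.residue ↥A)
    (ffi_dkap_resOK A L) lvl H1 H2 g n m0 hF hcech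

end Fermat.Agent.FF
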