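/-
Project FF (S19), cell [INST], sub-cell [I-PKG], leaf [P-CH] (helper10): THE TWO BASE-LEVEL PACKAGES
`rpn_Level0` OF THE `j`-CHARTS OF `F_L` AT THE LEVEL `(L, O₁ = A ∩ L)` (prefix `ffi_ch_`).

Twin of `rpw_base_dedekind` + `rpw_base_level0` (`JT3/PlaceMap/Wire.lean`, `WireLevel0.lean`) at the
generic level with `ffi_LvlOK A L ℓ`:
* `ffi_ch_mem`        : `ℓ ∈ 𝔪(O₁)`                                     (from `lvl.irr`);
* `ffi_ch_isAlgClosed`: the residue field of `O₁` is algebraically closed (from `lvl.res` +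
                        `lvl.algClosed`: it is the residue field of `A`);
* `ffi_ch_dedekind`   : both `j`-charts of `F_L` over `O₁` are Dedekind modulo `ℓ`
                        (`rpw_leg_dedekind` for `ℓ` odd, `rpw_hes_dedekind` for `ℓ = 2`; the roots
                        of unity from `lvl.roots`);
* `ffi_ch`            : `ffi_SeamCH N ℓ`  (`rpw_level0_j`, `rpw_level0_jinv`).
-/
import Mathlib
import Fermat.Agent.FF.Inst.Pkg.Seams
import Fermat.Agent.JT3.PlaceMap.WireLevel0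

set_option autoImplicit false
set_option linter.unusedSectionVars false
set_option linter.style.haveILetI false
set_option linter.unusedVariables false

noncomputable section

namespace Fermat.Agent.FF

open ModularCurve AlgebraicCurve Fermat.Agent.JT3 IsLocalRing

section Charts

variable (A : ValuationSubring ff_Qb) (L : Type) [Field L] [Algebra L ff_Qb] {ℓ : ℕ}

/-- `ℓ` lies in the maximal ideal of `O₁`. -/
theorem ffi_ch_mem (lvl : ffi_LvlOK A L ℓ) :
    ((ℓ : ℕ) : ↥(ffi_O A L)) ∈ maximalIdeal ↥(ffi_O A L) := by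
  rw [mem_maximalIdeal, mem_nonunits_iff]
  exact lvl.irr.not_isUnit

/-- every residue class of `A` is represented in `O₁`. -/
theorem ffi_ch_repr (lvl : ffi_LvlOK A L ℓ) (a : ↥A) :
    ∃ o : ↥(A.comap (algebraMap L ff_Qb)),
      residue ↥A (dsc_incl ff_Qb A L o) = residue ↥A a := by
  obtain ⟨c, hcA, hc⟩ := lvl.res a
  refine ⟨⟨c, hcA⟩, ?_⟩
  rw [← sub_eq_zero, ← map_sub, residue_eq_zero_iff, mem_maximalIdeal, mem_nonunits_iff]
  intro hu
  have h1 : ((dsc_incl ff_Qb A L ⟨c, hcA⟩ - a : ↥A) : ff_Qb) ∈ A.nonunits := by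
    have : ((dsc_incl ff_Qb A L ⟨c, hcA⟩ - a : ↥A) : ff_Qb) =
        -((a : ff_Qb) - algebraMap L ff_Qb c) := by
      show algebraMap L ff_Qb c - (a : ff_Qb) = _
      ring
    rw [this]
    exact neg_mem hc
  exact (ValuationSubring.coe_mem_nonunits_iff.1 h1) hu

/-- the residue field of `O₁` is algebraically closed. -/
theorem ffi_ch_isAlgClosed (lvl : ffi_LvlOK A L ℓ) :
    IsAlgClosed (ResidueField ↥(ffi_O A L)) := by
  haveI := lvl.algClosed
  haveI := dsc_incl_isLocalHom ff_Qb A L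
  exact IsAlgClosed.of_ringEquiv (k := ResidueField ↥A) _
    (ebr_residueEquivOfRepr (dsc_incl ff_Qb A L) (ffi_ch_repr A L lvl)).symm

end Charts

section Main

variable (N : ℕ) [NeZero N] {ℓ : ℕ}

attribute [local instance] rpw_tower_O_L_F

/-- **both `j`-charts of `F_L` over `O₁ = A ∩ L` are Dedekind modulo `ℓ`** (generic level). -/
theorem ffi_ch_dedekind (hℓ : ℓ.Prime) (hℓN : ¬ ℓ ∣ N) (A : ValuationSubring ff_Qb)
    (L : Type) [Field L] [Algebra ℚ L] [Algebra L ff_Qb] [IsScalarTower ℚ L ff_Qb]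
    [IsDiscreteValuationRing ↥(ffi_O A L)] (lvl : ffi_LvlOK A L ℓ) :
    IsDedekindDomain (fc_chart ↥(ffi_O A L) ({rml_jF L N} : Set ↥(lg_F L N)) ⧸
        Ideal.span {algebraMap ↥(ffi_O A L) (fc_chart ↥(ffi_O A L)
          ({rml_jF L N} : Set ↥(lg_F L N))) ((ℓ : ℕ) : ↥(ffi_O A L))}) ∧
      IsDedekindDomain (fc_chart ↥(ffi_O A L) ({(rml_jF L N)⁻¹} : Set ↥(lg_F L N)) ⧸
        Ideal.span {algebraMap ↥(ffi_O A L) (fc_chart ↥(ffi_O A L)
          ({(rml_jF L N)⁻¹} : Set ↥(lg_F L N))) ((ℓ : ℕ) : ↥(ffi_O A L))}) := by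
  haveI : Fact ℓ.Prime := ⟨hℓ⟩
  haveI : CharZero L := algebraRat.charZero L
  haveI := ffi_ch_isAlgClosed A L lvl
  have hπ := lvl.irr
  have hℓm := ffi_ch_mem A L lvl
  by_cases h2 : ℓ = 2
  · have hℓ3 : ℓ ≠ 3 := by omega
    have h3N : 3 * N ≠ 0 := Nat.mul_ne_zero (by norm_num) (NeZero.ne N)
    haveI : NeZero (3 * N) := ⟨h3N⟩
    have hℓ3N : ¬ ℓ ∣ 3 * N := by
      intro h
      rcases (hℓ.dvd_mul).1 h with h' | h'
      · exact hℓ3 ((Nat.prime_dvd_prime_iff_eq hℓ Nat.prime_three).1 h')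
      · exact hℓN h'
    obtain ⟨ζ, hζ⟩ := lvl.roots (3 * N) h3N hℓ3N
    exact rpw_hes_dedekind N _ hπ ℓ hℓm hℓ3 hℓN ζ hζ
  · obtain ⟨ζ, hζ⟩ := lvl.roots N (NeZero.ne N) hℓN
    exact rpw_leg_dedekind N _ hπ ℓ hℓm h2 hℓN ζ hζ

/-- **[P-CH]** the two base-level packages of the `j`-charts at the level `(L, O₁)`. -/
theorem ffi_ch (ℓ : ℕ) : ffi_SeamCH N ℓ := by
  intro hℓ hℓN A hA L _ _ _ _ _ lvl
  haveI : CharZero L := algebraRat.charZero L
  obtain ⟨h1, h2⟩ := ffi_ch_dedekind N hℓ hℓN A L lvl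
  exact ⟨rpw_level0_j _ N lvl.irr h1, rpw_level0_jinv _ N lvl.irr h2⟩

end Main

end Fermat.Agent.FF
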